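import Mathlib

/-!
# S21 / (D), part 1: permutation operators on functions on a finite `G`-set

`alg_act g v = v ∘ (g • ·)`; its trace is the number of fixed points; dimensions of
`ker (1 + σ)` for an involution and of `ker (1 + υ + υ²)` for an element of order three.
-/

set_option autoImplicit false
set_option linter.unusedSectionVars false

namespace Fermat.Agent.S21

open Module

section AlgPerm

variable {G X : Type*} [Group G] [MulAction G X] [Fintype X]

/-- precomposition with the action of `g` on functions `X → ℂ`. -/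
noncomputable def alg_act (g : G) : (X → ℂ) →ₗ[ℂ] (X → ℂ) :=
  LinearMap.funLeft ℂ ℂ (fun x => g • x)

@[simp] theorem alg_act_apply (g : G) (v : X → ℂ) (x : X) : alg_act g v x = v (g • x) := rfl

theorem alg_act_mul (g h : G) : (alg_act (g * h) : (X → ℂ) →ₗ[ℂ] (X → ℂ))
    = alg_act h ∘ₗ alg_act g := by
  refine LinearMap.ext fun v => funext fun x => ?_
  simp [mul_smul]

theorem alg_trace_act (g : G) :
    LinearMap.trace ℂ (X → ℂ) (alg_act g) = (Nat.card (MulAction.fixedBy X g) : ℂ) := by
  classical
  rw [LinearMap.trace_eq_matrix_trace ℂ (Pi.basisFun ℂ X)]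
  simp only [Matrix.trace, Matrix.diag_apply, LinearMap.toMatrix_apply, Pi.basisFun_apply,
    Pi.basisFun_repr, alg_act_apply]
  rw [Nat.card_eq_fintype_card, Fintype.card_subtype]
  simp only [MulAction.mem_fixedBy, Pi.single_apply]
  rw [Finset.card_filter]
  push_cast
  rfl

theorem alg_trace_id :
    LinearMap.trace ℂ (X → ℂ) LinearMap.id = (Nat.card X : ℂ) := by
  rw [LinearMap.trace_id, Module.finrank_fintype_fun_eq_card, Nat.card_eq_fintype_card]

/-- the `(-1)`-eigenspace of an involution. -/
noncomputable def alg_kerTwo (g : G) : Submodule ℂ (X → ℂ) :=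
  LinearMap.ker (LinearMap.id + alg_act g)

theorem alg_mem_kerTwo (g : G) (v : X → ℂ) :
    v ∈ alg_kerTwo g ↔ ∀ x, v x + v (g • x) = 0 := by
  rw [alg_kerTwo, LinearMap.mem_ker]
  constructor
  · intro h x
    simpa using congrFun h x
  · intro h
    funext x
    simpa using h x

/-- the kernel of `1 + υ + υ²`. -/
noncomputable def alg_kerThree (g : G) : Submodule ℂ (X → ℂ) :=
  LinearMap.ker (LinearMap.id + alg_act g + alg_act g ∘ₗ alg_act g)

theorem alg_mem_kerThree (g : G) (v : X → ℂ) :
    v ∈ alg_kerThree g ↔ ∀ x, v x + v (g • x) + v (g • g • x) = 0 := by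
  rw [alg_kerThree, LinearMap.mem_ker]
  constructor
  · intro h x
    simpa using congrFun h x
  · intro h
    funext x
    simpa using h x

theorem alg_finrank_kerTwo (g : G) (hg : ∀ x : X, g • g • x = x) :
    2 * finrank ℂ (alg_kerTwo (X := X) g) + Nat.card (MulAction.fixedBy X g) = Nat.card X := by
  classical
  set P : (X → ℂ) →ₗ[ℂ] (X → ℂ) := (2⁻¹ : ℂ) • (LinearMap.id - alg_act g) with hP
  have hproj : LinearMap.IsProj (alg_kerTwo (X := X) g) P := by
    refine ⟨fun v => ?_, fun v hv => ?_⟩
    · rw [alg_mem_kerTwo]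
      intro x
      simp only [hP, LinearMap.smul_apply, LinearMap.sub_apply, LinearMap.id_apply,
        alg_act_apply, Pi.smul_apply, Pi.sub_apply, smul_eq_mul, hg]
      ring
    · rw [alg_mem_kerTwo] at hv
      funext x
      simp only [hP, LinearMap.smul_apply, LinearMap.sub_apply, LinearMap.id_apply,
        alg_act_apply, Pi.smul_apply, Pi.sub_apply, smul_eq_mul]
      linear_combination (-(2⁻¹ : ℂ)) * hv x
  have htr := hproj.trace
  rw [hP, map_smul, map_sub, alg_trace_id, alg_trace_act, smul_eq_mul] at htr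
  have h2 : (2 * (finrank ℂ (alg_kerTwo (X := X) g) : ℂ)
      + (Nat.card (MulAction.fixedBy X g) : ℂ)) = (Nat.card X : ℂ) := by
    rw [← htr]; ring
  exact_mod_cast h2

theorem alg_fixedBy_sq (g : G) (hg : ∀ x : X, g • g • g • x = x) :
    MulAction.fixedBy X (g * g) = MulAction.fixedBy X g := by
  ext x
  simp only [MulAction.mem_fixedBy, mul_smul]
  constructor
  · intro h
    have := hg x
    rw [h] at this
    exact this
  · intro h
    rw [h, h]

theorem alg_finrank_kerThree (g : G) (hg : ∀ x : X, g • g • g • x = x) :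
    3 * finrank ℂ (alg_kerThree (X := X) g) + 2 * Nat.card (MulAction.fixedBy X g)
      = 2 * Nat.card X := by
  classical
  set P : (X → ℂ) →ₗ[ℂ] (X → ℂ) :=
    LinearMap.id - (3⁻¹ : ℂ) • (LinearMap.id + alg_act g + alg_act g ∘ₗ alg_act g) with hP
  have hproj : LinearMap.IsProj (alg_kerThree (X := X) g) P := by
    refine ⟨fun v => ?_, fun v hv => ?_⟩
    · rw [alg_mem_kerThree]
      intro x
      simp only [hP, LinearMap.smul_apply, LinearMap.sub_apply, LinearMap.add_apply,
        LinearMap.id_apply, LinearMap.comp_apply,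
        alg_act_apply, Pi.smul_apply, Pi.sub_apply, Pi.add_apply, smul_eq_mul, hg]
      ring
    · rw [alg_mem_kerThree] at hv
      funext x
      simp only [hP, LinearMap.smul_apply, LinearMap.sub_apply, LinearMap.add_apply,
        LinearMap.id_apply, LinearMap.comp_apply,
        alg_act_apply, Pi.smul_apply, Pi.sub_apply, Pi.add_apply, smul_eq_mul]
      linear_combination (-(3⁻¹ : ℂ)) * hv x
  have htr := hproj.trace
  rw [hP, map_sub, map_smul, map_add, map_add, ← alg_act_mul, alg_trace_id, alg_trace_act,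
    alg_trace_act, alg_fixedBy_sq g hg, smul_eq_mul] at htr
  have h2 : (3 * (finrank ℂ (alg_kerThree (X := X) g) : ℂ)
      + 2 * (Nat.card (MulAction.fixedBy X g) : ℂ)) = 2 * (Nat.card X : ℂ) := by
    rw [← htr]; ring
  exact_mod_cast h2

end AlgPerm

end Fermat.Agent.S21
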