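import Mathlib
import Fermat.Agent.S21.AlgBoundAux1

/-!
# S21 / (D), part 2: push-forward of functions to the orbit space and the rank bound

`alg_push π w q = ∑_{π x = q} w x`.  If `π` is surjective and `T`-invariant and `⟨S, T⟩` acts
transitively on `X`, then the push-forward of `ker (1 + S)` has codimension at most one.
-/

set_option autoImplicit false
set_option linter.unusedSectionVars false

namespace Fermat.Agent.S21

open Module
open scoped Pointwise

section AlgPush

variable {G X Q : Type*} [Group G] [MulAction G X] [Fintype X] [Fintype Q]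

/-- push-forward (fibre sums) of functions along `π : X → Q`. -/
noncomputable def alg_push (π : X → Q) : (X → ℂ) →ₗ[ℂ] (Q → ℂ) := by
  classical
  exact
  { toFun := fun w q => ∑ x, if π x = q then w x else 0
    map_add' := by
      intro v w
      funext q
      simp only [Pi.add_apply]
      rw [← Finset.sum_add_distrib]
      refine Finset.sum_congr rfl fun x _ => ?_
      split_ifs <;> simp
    map_smul' := by
      intro c w
      funext q
      simp only [Pi.smul_apply, smul_eq_mul, RingHom.id_apply]
      rw [Finset.mul_sum]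
      refine Finset.sum_congr rfl fun x _ => ?_
      split_ifs <;> simp }

theorem alg_push_apply [DecidableEq Q] (π : X → Q) (w : X → ℂ) (q : Q) :
    alg_push π w q = ∑ x, if π x = q then w x else 0 := by
  unfold alg_push
  simp only [LinearMap.coe_mk, AddHom.coe_mk]
  refine Finset.sum_congr rfl fun x _ => ?_
  split_ifs <;> rfl

theorem alg_push_single [DecidableEq X] [DecidableEq Q] (π : X → Q) (x : X) :
    alg_push π (Pi.single x (1 : ℂ)) = Pi.single (π x) (1 : ℂ) := by
  funext q
  rw [alg_push_apply]
  simp only [Pi.single_apply]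
  rw [Finset.sum_eq_single x]
  · simp [eq_comm]
  · intro y _ hy
    simp [hy]
  · intro h
    exact absurd (Finset.mem_univ x) h

theorem alg_push_act (π : X → Q) (g : G) (hπ : ∀ x, π (g • x) = π x) (w : X → ℂ) :
    alg_push π (alg_act g w) = alg_push π w := by
  classical
  funext q
  rw [alg_push_apply, alg_push_apply]
  have := Equiv.sum_comp (MulAction.toPerm g : Equiv.Perm X)
    (fun y => if π y = q then w y else 0)
  rw [← this]
  refine Finset.sum_congr rfl fun x _ => ?_
  simp only [MulAction.toPerm_apply, alg_act_apply, hπ]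

theorem alg_push_act_pow (π : X → Q) (g : G) (hπ : ∀ x, π (g • x) = π x) (w : X → ℂ) (i : ℕ) :
    alg_push π (alg_act (g ^ i) w) = alg_push π w := by
  refine alg_push_act π (g ^ i) ?_ w
  intro x
  induction i with
  | zero => simp
  | succ k ih => rw [pow_succ', mul_smul, hπ, ih]

theorem alg_push_avg (π : X → Q) (g : G) (hπ : ∀ x, π (g • x) = π x) (w : X → ℂ) (n : ℕ) :
    alg_push π (∑ i ∈ Finset.range n, alg_act (g ^ i) w) = (n : ℂ) • alg_push π w := by
  rw [map_sum]
  simp only [alg_push_act_pow π g hπ]
  rw [Finset.sum_const, Finset.card_range, Nat.cast_smul_eq_nsmul]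

end AlgPush

section AlgConn

variable {G X Q : Type*} [Group G] [MulAction G X] [Fintype X] [Fintype Q]

theorem alg_stable_eq_univ {S T : G} (hgen : Subgroup.closure {S, T} = ⊤)
    [MulAction.IsPretransitive G X] (Y : Set X) (hne : Y.Nonempty)
    (hS : ∀ x ∈ Y, S • x ∈ Y) (hT : ∀ x ∈ Y, T • x ∈ Y) : Y = Set.univ := by
  have hle : Subgroup.closure {S, T} ≤ MulAction.stabilizer G Y := by
    rw [Subgroup.closure_le]
    intro g hg
    rw [SetLike.mem_coe, MulAction.mem_stabilizer_set_iff_smul_set_subset (Set.toFinite Y),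
      Set.smul_set_subset_iff]
    rcases hg with rfl | hg
    · exact fun x hx => hS x hx
    · rw [Set.mem_singleton_iff] at hg
      subst hg
      exact fun x hx => hT x hx
  rw [hgen] at hle
  obtain ⟨y, hy⟩ := hne
  rw [Set.eq_univ_iff_forall]
  intro x
  obtain ⟨g, hg⟩ := MulAction.exists_smul_eq G y x
  have hgs : g ∈ MulAction.stabilizer G Y := hle (Subgroup.mem_top g)
  rw [MulAction.mem_stabilizer_set] at hgs
  rw [← hg]
  exact (hgs y).mpr hy

theorem alg_rank_push {S T : G} (hgen : Subgroup.closure {S, T} = ⊤)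
    [MulAction.IsPretransitive G X] [Nonempty X] (hS2 : ∀ x : X, S • S • x = x)
    (π : X → Q) (hπ : Function.Surjective π) (hπT : ∀ x, π (T • x) = π x) :
    Nat.card Q ≤ finrank ℂ ((alg_kerTwo (X := X) S).map (alg_push π)) + 1 := by
  classical
  obtain ⟨x₀⟩ := ‹Nonempty X›
  set W : Submodule ℂ (Q → ℂ) := (alg_kerTwo (X := X) S).map (alg_push π) with hW
  set L : Submodule ℂ (Q → ℂ) := Submodule.span ℂ {Pi.single (π x₀) (1 : ℂ)} with hL
  -- the set of points whose orbit indicator lies in `W ⊔ L`
  have hY : {x : X | Pi.single (π x) (1 : ℂ) ∈ W ⊔ L} = Set.univ := by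
    refine alg_stable_eq_univ hgen _ ⟨x₀, ?_⟩ ?_ ?_
    · exact Submodule.mem_sup_right (Submodule.subset_span (Set.mem_singleton _))
    · intro x hx
      change Pi.single (π x) (1 : ℂ) ∈ W ⊔ L at hx
      change Pi.single (π (S • x)) (1 : ℂ) ∈ W ⊔ L
      -- `a = δ_x - δ_x ∘ S ∈ ker (1 + S)` and `push a = δ_[x] - δ_[S x]`
      have ha : (Pi.single x (1 : ℂ) - alg_act S (Pi.single x (1 : ℂ)) : X → ℂ)
          ∈ alg_kerTwo (X := X) S := by
        rw [alg_mem_kerTwo]
        intro y
        simp only [Pi.sub_apply, alg_act_apply, hS2]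
        ring
      have hact : (alg_act S (Pi.single x (1 : ℂ)) : X → ℂ) = Pi.single (S • x) (1 : ℂ) := by
        funext y
        simp only [alg_act_apply, Pi.single_apply]
        have : (S • y = x) ↔ (y = S • x) := by
          constructor
          · intro h; rw [← h, hS2]
          · intro h; rw [h, hS2]
        simp only [this]
      have hmem : alg_push π (Pi.single x (1 : ℂ) - alg_act S (Pi.single x (1 : ℂ))) ∈ W :=
        Submodule.mem_map_of_mem ha
      rw [map_sub, hact, alg_push_single, alg_push_single] at hmem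
      have h2 : (Pi.single (π (S • x)) (1 : ℂ) : Q → ℂ)
          = Pi.single (π x) (1 : ℂ) - (Pi.single (π x) (1 : ℂ) - Pi.single (π (S • x)) 1) := by
        abel
      rw [h2]
      exact Submodule.sub_mem _ hx (Submodule.mem_sup_left hmem)
    · intro x hx
      change Pi.single (π x) (1 : ℂ) ∈ W ⊔ L at hx
      change Pi.single (π (T • x)) (1 : ℂ) ∈ W ⊔ L
      rw [hπT]
      exact hx
  have htop : W ⊔ L = ⊤ := by
    rw [eq_top_iff]
    intro f _
    have hf : f = ∑ q, f q • (Pi.single q (1 : ℂ) : Q → ℂ) := by
      funext q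
      simp [Finset.sum_apply, Pi.single_apply]
    rw [hf]
    refine Submodule.sum_mem _ fun q _ => Submodule.smul_mem _ _ ?_
    obtain ⟨x, rfl⟩ := hπ q
    have : x ∈ {x : X | Pi.single (π x) (1 : ℂ) ∈ W ⊔ L} := by
      rw [hY]; exact Set.mem_univ x
    exact this
  have h1 : finrank ℂ (↥(W ⊔ L)) ≤ finrank ℂ W + finrank ℂ L :=
    Submodule.finrank_add_le_finrank_add_finrank W L
  have h2 : finrank ℂ L ≤ 1 := by
    rw [hL]
    exact (finrank_span_le_card _).trans (by simp)
  rw [htop, finrank_top, Module.finrank_fintype_fun_eq_card] at h1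
  rw [Nat.card_eq_fintype_card]
  omega

end AlgConn

end Fermat.Agent.S21
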