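import Mathlib
import Fermat.Agent.S21.AlgBoundAux1

/-!
# S21 / (D), part 3: the induced cocycle ("Shapiro by hand")

`G` a group, `Γ ≤ G`, `X = G ⧸ Γ`, `s = Quotient.out : X → G`.  For `χ : Γ → ℂ` additive and
`v : X → ℂ` we put `alg_cc Γ g (χ, v) x = χ (s (g x)⁻¹ g s x) + v (g x) - v x`.
-/

set_option autoImplicit false
set_option linter.unusedSectionVars false

namespace Fermat.Agent.S21

open Module

section AlgCocycle

variable {G : Type*} [Group G] (Γ : Subgroup G)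

/-- the element `s (g x)⁻¹ * g * s x` of `Γ`. -/
noncomputable def alg_gam (g : G) (x : G ⧸ Γ) : Γ :=
  ⟨(Quotient.out (g • x))⁻¹ * g * Quotient.out x, by
    rw [mul_assoc, ← QuotientGroup.eq, QuotientGroup.out_eq']
    conv_lhs => rw [← QuotientGroup.out_eq' x]
    rfl⟩

theorem alg_gam_coe (g : G) (x : G ⧸ Γ) :
    ((alg_gam Γ g x : Γ) : G) = (Quotient.out (g • x))⁻¹ * g * Quotient.out x := rfl

theorem alg_gam_mul (g h : G) (x : G ⧸ Γ) :
    alg_gam Γ (g * h) x = alg_gam Γ g (h • x) * alg_gam Γ h x := by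
  apply Subtype.ext
  rw [Subgroup.coe_mul, alg_gam_coe, alg_gam_coe, alg_gam_coe, mul_smul]
  group

theorem alg_gam_coe_of_fixed (g : G) (x : G ⧸ Γ) (hx : g • x = x) :
    ((alg_gam Γ g x : Γ) : G) = (Quotient.out x)⁻¹ * g * Quotient.out x := by
  rw [alg_gam_coe, hx]

/-- the combined cocycle `c_χ g + (g - 1) v`, linear in `(χ, v)`. -/
noncomputable def alg_cc (g : G) :
    ((Additive Γ →+ ℂ) × ((G ⧸ Γ) → ℂ)) →ₗ[ℂ] ((G ⧸ Γ) → ℂ) where
  toFun p x := p.1 (Additive.ofMul (alg_gam Γ g x)) + p.2 (g • x) - p.2 x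
  map_add' p q := by
    funext x
    simp only [Prod.fst_add, Prod.snd_add, AddMonoidHom.add_apply, Pi.add_apply]
    ring
  map_smul' c p := by
    funext x
    simp only [Prod.smul_fst, Prod.smul_snd, AddMonoidHom.smul_apply, Pi.smul_apply,
      smul_eq_mul, RingHom.id_apply]
    ring

theorem alg_cc_apply (g : G) (p : (Additive Γ →+ ℂ) × ((G ⧸ Γ) → ℂ)) (x : G ⧸ Γ) :
    alg_cc Γ g p x = p.1 (Additive.ofMul (alg_gam Γ g x)) + p.2 (g • x) - p.2 x := rfl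

theorem alg_cc_mul (g h : G) (p : (Additive Γ →+ ℂ) × ((G ⧸ Γ) → ℂ)) (x : G ⧸ Γ) :
    alg_cc Γ (g * h) p x = alg_cc Γ g p (h • x) + alg_cc Γ h p x := by
  simp only [alg_cc_apply, alg_gam_mul, ofMul_mul, map_add, mul_smul]
  ring

theorem alg_cc_one (p : (Additive Γ →+ ℂ) × ((G ⧸ Γ) → ℂ)) (x : G ⧸ Γ) :
    alg_cc Γ 1 p x = 0 := by
  have h := alg_cc_mul Γ 1 1 p x
  rw [one_mul, one_smul] at h
  linear_combination -h

theorem alg_cc_pow (g : G) (p : (Additive Γ →+ ℂ) × ((G ⧸ Γ) → ℂ)) (x : G ⧸ Γ) (n : ℕ) :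
    alg_cc Γ (g ^ n) p x = ∑ i ∈ Finset.range n, alg_cc Γ g p (g ^ i • x) := by
  induction n with
  | zero => simp [alg_cc_one]
  | succ k ih =>
    rw [pow_succ', alg_cc_mul, Finset.sum_range_succ, ih]
    ring

/-- a cocycle vanishing on a generating set vanishes. -/
theorem alg_cc_eq_zero_of_gen (s : Set G) (hs : Subgroup.closure s = ⊤)
    (p : (Additive Γ →+ ℂ) × ((G ⧸ Γ) → ℂ)) (h0 : ∀ g ∈ s, alg_cc Γ g p = 0) (g : G) :
    alg_cc Γ g p = 0 := by
  have hg : g ∈ Subgroup.closure s := by rw [hs]; exact Subgroup.mem_top g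
  induction hg using Subgroup.closure_induction with
  | mem g hg => exact h0 g hg
  | one => funext x; exact alg_cc_one Γ p x
  | mul a b _ _ ha hb =>
    funext x
    rw [alg_cc_mul, ha, hb]
    simp
  | inv a _ ha =>
    funext x
    have h := alg_cc_mul Γ a a⁻¹ p x
    rw [mul_inv_cancel, alg_cc_one, ha] at h
    simpa using h.symm

/-- the kernel: if the combined cocycle vanishes identically then `χ = 0` and `v` is constant. -/
theorem alg_cc_ker (p : (Additive Γ →+ ℂ) × ((G ⧸ Γ) → ℂ))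
    (h : ∀ g, alg_cc Γ g p = 0) :
    p.1 = 0 ∧ ∀ x, p.2 x = p.2 ((1 : G) : G ⧸ Γ) := by
  set x₀ : G ⧸ Γ := ((1 : G) : G ⧸ Γ) with hx₀
  have hs₀ : (Quotient.out x₀ : G) ∈ Γ := by
    have h1 : ((Quotient.out x₀ : G) : G ⧸ Γ) = ((1 : G) : G ⧸ Γ) := QuotientGroup.out_eq' x₀
    have h2 := QuotientGroup.eq.mp h1.symm
    simpa using h2
  have hfix : ∀ γ : G, γ ∈ Γ → γ • x₀ = x₀ := by
    intro γ hγ
    rw [hx₀, MulAction.Quotient.smul_mk, smul_eq_mul, mul_one]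
    exact (QuotientGroup.eq.mpr (by simpa using Γ.inv_mem hγ))
  have hχ : p.1 = 0 := by
    refine AddMonoidHom.ext fun a => ?_
    obtain ⟨γ, rfl⟩ : ∃ γ : Γ, Additive.ofMul γ = a := ⟨Additive.toMul a, rfl⟩
    set g : G := Quotient.out x₀ * (γ : G) * (Quotient.out x₀)⁻¹ with hg
    have hgΓ : g ∈ Γ := Γ.mul_mem (Γ.mul_mem hs₀ γ.2) (Γ.inv_mem hs₀)
    have hgx : g • x₀ = x₀ := hfix g hgΓ
    have hgam : alg_gam Γ g x₀ = γ := by
      apply Subtype.ext
      rw [alg_gam_coe_of_fixed Γ g x₀ hgx, hg]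
      group
    have := congrFun (h g) x₀
    rw [alg_cc_apply, hgx, hgam] at this
    simpa using this
  refine ⟨hχ, fun x => ?_⟩
  obtain ⟨g, hg⟩ := MulAction.exists_smul_eq G x₀ x
  have := congrFun (h g) x₀
  rw [alg_cc_apply, hχ, hg] at this
  simp only [AddMonoidHom.zero_apply, zero_add, Pi.zero_apply] at this
  linear_combination this

/-- a central element of `Γ` of order two: the cocycle vanishes on it. -/
theorem alg_cc_central (z : G) (hz : z ∈ Γ) (hcomm : ∀ g : G, g * z = z * g) (hz2 : z * z = 1)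
    (p : (Additive Γ →+ ℂ) × ((G ⧸ Γ) → ℂ)) (x : G ⧸ Γ) :
    z • x = x ∧ alg_cc Γ z p x = 0 := by
  have hzx : z • x = x := by
    obtain ⟨a, rfl⟩ := QuotientGroup.mk_surjective x
    rw [MulAction.Quotient.smul_mk, smul_eq_mul]
    refine QuotientGroup.eq.mpr ?_
    rw [← hcomm a]
    have : (a * z)⁻¹ * a = z⁻¹ := by group
    rw [this]
    exact Γ.inv_mem hz
  refine ⟨hzx, ?_⟩
  have hgam : alg_gam Γ z x = ⟨z, hz⟩ := by
    apply Subtype.ext
    rw [alg_gam_coe_of_fixed Γ z x hzx, mul_assoc, ← hcomm (Quotient.out x), ← mul_assoc,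
      inv_mul_cancel, one_mul]
  rw [alg_cc_apply, hzx, hgam]
  have h2 : p.1 (Additive.ofMul (⟨z, hz⟩ : Γ)) + p.1 (Additive.ofMul (⟨z, hz⟩ : Γ)) = 0 := by
    rw [← map_add, ← ofMul_mul]
    have : (⟨z, hz⟩ : Γ) * ⟨z, hz⟩ = 1 := Subtype.ext hz2
    rw [this, ofMul_one, map_zero]
  have h3 : p.1 (Additive.ofMul (⟨z, hz⟩ : Γ)) = 0 := by
    linear_combination (1 / 2 : ℂ) * h2
  rw [h3]
  ring

end AlgCocycle

end Fermat.Agent.S21
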