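import Mathlib
import Fermat.Prelude.Def_ModularCurve_PeriodMap
import Fermat.Agent.S21.AlgBoundAux1
import Fermat.Agent.S21.AlgBoundAux2
import Fermat.Agent.S21.AlgBoundAux3

/-!
# S21 / (D), part 4: specialisation to `SL(2, ℤ)`
-/

set_option autoImplicit false
set_option linter.unusedSectionVars false

open ModularCurve ModularCurve.Period Matrix.SpecialLinearGroup ModularGroup
open scoped MatrixGroups

namespace Fermat.Agent.S21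

open Module

theorem alg_S_mul_S : (S * S : SL(2, ℤ)) = -1 := by decide

theorem alg_U_cube : ((S * T) * ((S * T) * (S * T)) : SL(2, ℤ)) = -1 := by decide

theorem alg_neg_one_comm (g : SL(2, ℤ)) : g * (-1) = (-1) * g := by
  rw [mul_neg, neg_mul, mul_one, one_mul]

theorem alg_neg_one_sq : ((-1 : SL(2, ℤ)) * (-1)) = 1 := by
  rw [neg_mul_neg, one_mul]

theorem alg_trace_conj_T_pow (a : SL(2, ℤ)) (n : ℕ) :
    (((a⁻¹ * T ^ n * a : SL(2, ℤ)) : Matrix (Fin 2) (Fin 2) ℤ)).trace = 2 := by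
  have h1 : ((a⁻¹ * T ^ n * a : SL(2, ℤ)) : Matrix (Fin 2) (Fin 2) ℤ)
      = (a⁻¹ : SL(2, ℤ)).1 * ((T ^ n : SL(2, ℤ)).1 * a.1) := by
    rw [mul_assoc]; rfl
  have h2 : a.1 * (a⁻¹ : SL(2, ℤ)).1 = 1 := by
    have : (a * a⁻¹ : SL(2, ℤ)).1 = 1 := by rw [mul_inv_cancel]; rfl
    exact this
  rw [h1, Matrix.trace_mul_comm, Matrix.mul_assoc, h2, Matrix.mul_one]
  have h3 : (T ^ n : SL(2, ℤ)).1 = !![1, (n : ℤ); 0, 1] := by
    have := coe_T_zpow (n : ℤ)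
    rwa [zpow_natCast] at this
  rw [h3, Matrix.trace_fin_two_of]
  norm_num

/-- a common period of `T` on a finite `SL(2, ℤ)`-set. -/
theorem alg_exists_period {X : Type*} [MulAction SL(2, ℤ) X] [Finite X] (g : SL(2, ℤ)) :
    ∃ n : ℕ, 0 < n ∧ ∀ x : X, g ^ n • x = x := by
  classical
  have : Fintype X := Fintype.ofFinite X
  refine ⟨orderOf (MulAction.toPermHom SL(2, ℤ) X g), orderOf_pos _, fun x => ?_⟩
  have h := pow_orderOf_eq_one (MulAction.toPermHom SL(2, ℤ) X g)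
  rw [← map_pow] at h
  have h2 := congrArg (fun σ : Equiv.Perm X => σ x) h
  simpa using h2

end Fermat.Agent.S21

namespace Fermat.Agent.S21

open Module

section AlgSL

variable (Γ : Subgroup SL(2, ℤ))

theorem alg_S_S_smul (hneg : (-1 : SL(2, ℤ)) ∈ Γ) (x : SL(2, ℤ) ⧸ Γ) : S • S • x = x := by
  rw [← mul_smul, alg_S_mul_S]
  exact (alg_cc_central Γ (-1) hneg alg_neg_one_comm alg_neg_one_sq 0 x).1

theorem alg_U_U_U_smul (hneg : (-1 : SL(2, ℤ)) ∈ Γ) (x : SL(2, ℤ) ⧸ Γ) :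
    (S * T) • (S * T) • (S * T) • x = x := by
  rw [← mul_smul, ← mul_smul, mul_assoc, alg_U_cube]
  exact (alg_cc_central Γ (-1) hneg alg_neg_one_comm alg_neg_one_sq 0 x).1

theorem alg_cc_S_mem (hneg : (-1 : SL(2, ℤ)) ∈ Γ)
    (p : (Additive Γ →+ ℂ) × ((SL(2, ℤ) ⧸ Γ) → ℂ)) [Fintype (SL(2, ℤ) ⧸ Γ)] :
    alg_cc Γ S p ∈ alg_kerTwo (X := SL(2, ℤ) ⧸ Γ) S := by
  rw [alg_mem_kerTwo]
  intro x
  have h := alg_cc_mul Γ S S p x
  rw [alg_S_mul_S, (alg_cc_central Γ (-1) hneg alg_neg_one_comm alg_neg_one_sq p x).2] at h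
  linear_combination -h

theorem alg_cc_U_mem (hneg : (-1 : SL(2, ℤ)) ∈ Γ)
    (p : (Additive Γ →+ ℂ) × ((SL(2, ℤ) ⧸ Γ) → ℂ)) [Fintype (SL(2, ℤ) ⧸ Γ)] :
    alg_cc Γ (S * T) p ∈ alg_kerThree (X := SL(2, ℤ) ⧸ Γ) (S * T) := by
  rw [alg_mem_kerThree]
  intro x
  have h := alg_cc_mul Γ (S * T) ((S * T) * (S * T)) p x
  rw [alg_U_cube, (alg_cc_central Γ (-1) hneg alg_neg_one_comm alg_neg_one_sq p x).2,
    alg_cc_mul Γ (S * T) (S * T) p x, mul_smul] at h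
  linear_combination -h

theorem alg_cc_T_eq (p : (Additive Γ →+ ℂ) × ((SL(2, ℤ) ⧸ Γ) → ℂ)) [Fintype (SL(2, ℤ) ⧸ Γ)] :
    alg_cc Γ (S * T) p - alg_act T (alg_cc Γ S p) = alg_cc Γ T p := by
  funext x
  rw [Pi.sub_apply, alg_act_apply, alg_cc_mul]
  ring

theorem alg_cc_T_pow_parabolic (p : (Additive Γ →+ ℂ) × ((SL(2, ℤ) ⧸ Γ) → ℂ))
    (hp : p.1 ∈ parabolicHoms ℂ Γ ℂ) (n : ℕ) (x : SL(2, ℤ) ⧸ Γ) (hx : T ^ n • x = x) :
    alg_cc Γ (T ^ n) p x = 0 := by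
  rw [alg_cc_apply, hx]
  have h1 : p.1 (Additive.ofMul (alg_gam Γ (T ^ n) x)) = 0 := by
    refine hp _ ?_
    rw [alg_gam_coe_of_fixed Γ _ x hx, alg_trace_conj_T_pow]
    norm_num
  rw [h1]
  ring

theorem alg_push_cc_T {Q : Type*} [Fintype Q] [Fintype (SL(2, ℤ) ⧸ Γ)]
    (π : (SL(2, ℤ) ⧸ Γ) → Q) (hπ : ∀ x, π (T • x) = π x)
    (p : (Additive Γ →+ ℂ) × ((SL(2, ℤ) ⧸ Γ) → ℂ))
    (hp : p.1 ∈ parabolicHoms ℂ Γ ℂ) :
    alg_push π (alg_cc Γ T p) = 0 := by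
  obtain ⟨n, hn, hper⟩ := alg_exists_period (X := SL(2, ℤ) ⧸ Γ) T
  have h1 := alg_push_avg π T hπ (alg_cc Γ T p) n
  have h2 : (∑ i ∈ Finset.range n, alg_act (T ^ i) (alg_cc Γ T p)) = 0 := by
    funext x
    rw [Finset.sum_apply]
    simp only [alg_act_apply]
    rw [← alg_cc_pow, alg_cc_T_pow_parabolic Γ p hp n x (hper x)]
    rfl
  rw [h2, map_zero] at h1
  have hn' : (n : ℂ) ≠ 0 := by exact_mod_cast hn.ne'
  exact (smul_eq_zero.mp h1.symm).resolve_left hn'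

theorem alg_cc_ker_ST (p : (Additive Γ →+ ℂ) × ((SL(2, ℤ) ⧸ Γ) → ℂ))
    (hS : alg_cc Γ S p = 0) (hU : alg_cc Γ (S * T) p = 0) :
    p.1 = 0 ∧ ∀ x, p.2 x = p.2 ((1 : SL(2, ℤ)) : SL(2, ℤ) ⧸ Γ) := by
  refine alg_cc_ker Γ p (alg_cc_eq_zero_of_gen Γ {S, T} _root_.SpecialLinearGroup.SL2Z_generators p ?_)
  intro g hg
  rcases hg with rfl | hg
  · exact hS
  · rw [Set.mem_singleton_iff] at hg
    subst hg
    funext x
    have h := alg_cc_mul Γ S T p x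
    rw [hU, hS] at h
    simpa using h.symm

end AlgSL

end Fermat.Agent.S21
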