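import Mathlib
import Fermat.Prelude.Def_ModularCurve_PeriodHomPair
import Fermat.Prelude.Def_ModularCurve_GenusNumerics
import Fermat.Agent.S20.CosetFix
import Fermat.Agent.S20.CosetCusp
import Fermat.Agent.S20.CosetIndex
import Fermat.Agent.S21.AlgBoundAux1
import Fermat.Agent.S21.AlgBoundAux2
import Fermat.Agent.S21.AlgBoundAux3
import Fermat.Agent.S21.AlgBoundAux4

/-!
# S21 / (D) — the algebraic bound `dim Hom_par(Γ, ℂ) ≤ 2g`  (OWNER: see table `s21_modules`)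

Pure algebra ("Shapiro by hand"); names prefixed `alg_`.  `G = SL(2, ℤ)`, `Γ ≤ G` of finite index
with `-1 ∈ Γ`, `X = G ⧸ Γ` (Mathlib left action), `V = (X → ℂ)` with `(g • v) x = v (g⁻¹ • x)`,
`U = S * T` (so `S² = U³ = -1` acts trivially on `X`).

1. Choose a section `s : X → G` (`Quotient.out`).  For `χ : Γ → ℂ` additive put
   `c_χ g x := χ (s x)⁻¹ * g * s (g⁻¹ • x)` (an element of `Γ`).  Then
   `c_χ (g * h) = c_χ g + g • c_χ h`, `c_χ (-1) = 0` (because `2 χ(-1) = 0`).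
2. `Θ : Hom_par × V → ker (1 + S) × ker (1 + U + U²)`,
   `(χ, v) ↦ (c_χ S + (S - 1) v, c_χ U + (U - 1) v)`.
   `ker Θ = 0 × constants`: if `Θ (χ, v) = 0` then `c_χ g = (1 - g) v` for all `g` (both sides are
   cocycles, `G = ⟨S, T⟩ = ⟨S, U⟩`, Mathlib `SpecialLinearGroup.SL2Z_generators`); evaluating at
   the base coset for `g = (s x₀) γ (s x₀)⁻¹` gives `χ = 0`; then `v` is `G`-invariant, hence
   constant (transitivity).  So `dim Hom_par + μ - 1 ≤ dim (im Θ)`.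
3. `Λ : ker (1 + S) × ker (1 + U + U²) → (X/⟨T⟩ → ℂ)`, `(a, b) ↦ (O ↦ ∑_{x ∈ O} (S⁻¹ (b - a)) x)`
   (note `c (T) = c (S⁻¹ U) = S⁻¹ (c U - c S)`).  `im Θ ≤ ker Λ`: the orbit sums of `(T - 1) v`
   vanish, and the sum of `c_χ T` over the `T`-orbit of `x` (of length `h`) is
   `χ ((s x)⁻¹ T^h (s x))`, which is `0` for parabolic `χ` (trace `2`).
4. `rank Λ ≥ ν_∞ - 1`: `Λ ((S - 1) δ_x, 0) = e_[Sx] - e_[x]`, and these span the sum-zero
   functions on `X/⟨T⟩` because `⟨S, T⟩` acts transitively on `X`.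
5. `dim ker (1 + S) = (μ - ν₂) / 2`, `dim ker (1 + U + U²) = 2 (μ - ν₃) / 3`
   (e.g. traces of the projectors `(1 - S)/2` and `1 - (1 + U + U²)/3`, trace of a permutation
   matrix = number of fixed points; or explicit bases).
6. Hence `dim Hom_par ≤ (μ-ν₂)/2 + 2(μ-ν₃)/3 - (ν_∞ - 1) - (μ - 1)`, i.e.
   `6 dim + 3 ν₂ + 4 ν₃ + 6 ν_∞ ≤ μ + 12`.

Implementation (files `AlgBoundAux1..4`): we use the convention
`c g x = χ (s (g x)⁻¹ g s x) + v (g x) - v x`, so that `c (g h) x = c g (h x) + c h x`;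
`Λ (a, b) = push (b - a ∘ T)` with `push` the fibre sums along `X → X/⟨T⟩`; the orbit sums are
handled through a common period `n` of `T` on `X`.
-/

set_option autoImplicit false

open CongruenceSubgroup ModularCurve ModularCurve.Period Matrix.SpecialLinearGroup ModularGroup
open scoped MatrixGroups

namespace Fermat.Agent.S21

/-- the main count, with explicit `Fintype` instances. -/
theorem alg_bound_aux (Γ : Subgroup SL(2, ℤ)) (hneg : (-1 : SL(2, ℤ)) ∈ Γ)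
    [Fintype (SL(2, ℤ) ⧸ Γ)]
    [Fintype (MulAction.orbitRel.Quotient (Subgroup.zpowers T) (SL(2, ℤ) ⧸ Γ))] :
    Module.Finite ℂ (parabolicHoms ℂ Γ ℂ) ∧
      Module.finrank ℂ (parabolicHoms ℂ Γ ℂ) + Nat.card (SL(2, ℤ) ⧸ Γ)
        + Nat.card (MulAction.orbitRel.Quotient (Subgroup.zpowers T) (SL(2, ℤ) ⧸ Γ))
      ≤ Module.finrank ℂ (alg_kerTwo (X := SL(2, ℤ) ⧸ Γ) S)
        + Module.finrank ℂ (alg_kerThree (X := SL(2, ℤ) ⧸ Γ) (S * T)) + 2 := by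
  classical
  set H : Submodule ℂ (Additive Γ →+ ℂ) := parabolicHoms ℂ Γ ℂ with hH
  set A : Submodule ℂ ((SL(2, ℤ) ⧸ Γ) → ℂ) := alg_kerTwo (X := SL(2, ℤ) ⧸ Γ) S with hA
  set B : Submodule ℂ ((SL(2, ℤ) ⧸ Γ) → ℂ) := alg_kerThree (X := SL(2, ℤ) ⧸ Γ) (S * T) with hB
  -- the quotient map to the `T`-orbits
  let π : (SL(2, ℤ) ⧸ Γ) → MulAction.orbitRel.Quotient (Subgroup.zpowers T) (SL(2, ℤ) ⧸ Γ) :=
    Quotient.mk''
  have hπsurj : Function.Surjective π := Quotient.mk''_surjective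
  have hπT : ∀ x, π (T • x) = π x := by
    intro x
    refine Quotient.sound' ?_
    change T • x ∈ MulAction.orbit (Subgroup.zpowers T) x
    exact ⟨⟨T, Subgroup.mem_zpowers T⟩, rfl⟩
  -- the maps
  let ι : (↥H × ((SL(2, ℤ) ⧸ Γ) → ℂ)) →ₗ[ℂ] ((Additive Γ →+ ℂ) × ((SL(2, ℤ) ⧸ Γ) → ℂ)) :=
    LinearMap.prodMap H.subtype LinearMap.id
  have hι1 : ∀ p, (ι p).1 ∈ parabolicHoms ℂ Γ ℂ := fun p => p.1.2
  let ΦA : (↥H × ((SL(2, ℤ) ⧸ Γ) → ℂ)) →ₗ[ℂ] ↥A :=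
    LinearMap.codRestrict A (alg_cc Γ S ∘ₗ ι) (fun p => alg_cc_S_mem Γ hneg (ι p))
  let ΦB : (↥H × ((SL(2, ℤ) ⧸ Γ) → ℂ)) →ₗ[ℂ] ↥B :=
    LinearMap.codRestrict B (alg_cc Γ (S * T) ∘ₗ ι) (fun p => alg_cc_U_mem Γ hneg (ι p))
  let Φ : (↥H × ((SL(2, ℤ) ⧸ Γ) → ℂ)) →ₗ[ℂ] (↥A × ↥B) := ΦA.prod ΦB
  let g : (↥A × ↥B) →ₗ[ℂ]
      (MulAction.orbitRel.Quotient (Subgroup.zpowers T) (SL(2, ℤ) ⧸ Γ) → ℂ) :=
    alg_push π ∘ₗ (B.subtype ∘ₗ LinearMap.snd ℂ ↥A ↥B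
      - alg_act T ∘ₗ A.subtype ∘ₗ LinearMap.fst ℂ ↥A ↥B)
  -- kernel of Φ
  have hker : ∀ p, Φ p = 0 → p.1 = 0 ∧ ∀ x, p.2 x = p.2 ((1 : SL(2, ℤ)) : SL(2, ℤ) ⧸ Γ) := by
    intro p hp
    have h1 : alg_cc Γ S (ι p) = 0 := by
      have := congrArg (fun q : ↥A × ↥B => (q.1 : (SL(2, ℤ) ⧸ Γ) → ℂ)) hp
      exact this
    have h2 : alg_cc Γ (S * T) (ι p) = 0 := by
      have := congrArg (fun q : ↥A × ↥B => (q.2 : (SL(2, ℤ) ⧸ Γ) → ℂ)) hp
      exact this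
    obtain ⟨h3, h4⟩ := alg_cc_ker_ST Γ (ι p) h1 h2
    exact ⟨Subtype.ext h3, h4⟩
  -- finiteness
  have hfin : Module.Finite ℂ ↥H := by
    refine Module.Finite.of_injective (Φ ∘ₗ LinearMap.inl ℂ ↥H ((SL(2, ℤ) ⧸ Γ) → ℂ)) ?_
    rw [← LinearMap.ker_eq_bot, LinearMap.ker_eq_bot']
    intro χ hχ
    exact (hker (χ, 0) hχ).1
  refine ⟨hfin, ?_⟩
  -- the kernel of Φ has dimension ≤ 1
  have hkerdim : Module.finrank ℂ (LinearMap.ker Φ) ≤ 1 := by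
    have hle : LinearMap.ker Φ ≤ Submodule.span ℂ
        {((0 : ↥H), (fun _ => (1 : ℂ) : (SL(2, ℤ) ⧸ Γ) → ℂ))} := by
      intro p hp
      obtain ⟨h1, h2⟩ := hker p (LinearMap.mem_ker.mp hp)
      rw [Submodule.mem_span_singleton]
      refine ⟨p.2 ((1 : SL(2, ℤ)) : SL(2, ℤ) ⧸ Γ), ?_⟩
      refine Prod.ext ?_ ?_
      · simp [h1]
      · funext x
        simp [h2 x]
    exact (Submodule.finrank_mono hle).trans ((finrank_span_le_card _).trans (by simp))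
  -- im Φ ≤ ker g
  have hcomp : LinearMap.range Φ ≤ LinearMap.ker g := by
    rintro _ ⟨p, rfl⟩
    rw [LinearMap.mem_ker]
    change alg_push π (alg_cc Γ (S * T) (ι p) - alg_act T (alg_cc Γ S (ι p))) = 0
    rw [alg_cc_T_eq]
    exact alg_push_cc_T Γ π hπT (ι p) (hι1 p)
  -- the image of g contains the push-forward of A
  have hW : A.map (alg_push π) ≤ LinearMap.range g := by
    rintro _ ⟨a, ha, rfl⟩
    refine ⟨(-(⟨a, ha⟩ : ↥A), 0), ?_⟩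
    change alg_push π ((0 : (SL(2, ℤ) ⧸ Γ) → ℂ) - alg_act T (-a)) = alg_push π a
    rw [map_neg, zero_sub, neg_neg, alg_push_act π T hπT]
  have : Nonempty (SL(2, ℤ) ⧸ Γ) := ⟨((1 : SL(2, ℤ)) : SL(2, ℤ) ⧸ Γ)⟩
  have hrank : Nat.card (MulAction.orbitRel.Quotient (Subgroup.zpowers T) (SL(2, ℤ) ⧸ Γ))
      ≤ Module.finrank ℂ (A.map (alg_push π)) + 1 :=
    alg_rank_push (G := SL(2, ℤ)) (X := SL(2, ℤ) ⧸ Γ) (S := S) (T := T)
      _root_.SpecialLinearGroup.SL2Z_generators (alg_S_S_smul Γ hneg) π hπsurj hπT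
  have hrank2 : Module.finrank ℂ (A.map (alg_push π)) ≤ Module.finrank ℂ (LinearMap.range g) :=
    Submodule.finrank_mono hW
  have hrn1 := LinearMap.finrank_range_add_finrank_ker Φ
  have hrn2 := LinearMap.finrank_range_add_finrank_ker g
  have hle : Module.finrank ℂ (LinearMap.range Φ) ≤ Module.finrank ℂ (LinearMap.ker g) :=
    Submodule.finrank_mono hcomp
  rw [Module.finrank_prod, Module.finrank_fintype_fun_eq_card, ← Nat.card_eq_fintype_card] at hrn1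
  rw [Module.finrank_prod] at hrn2
  omega

/-- (D, general form) FROZEN STATEMENT. -/
theorem alg_bound (Γ : Subgroup SL(2, ℤ)) [Γ.FiniteIndex] (hneg : (-1 : SL(2, ℤ)) ∈ Γ) :
    Module.Finite ℂ (parabolicHoms ℂ Γ ℂ) ∧
      6 * Module.finrank ℂ (parabolicHoms ℂ Γ ℂ)
        + 3 * Nat.card (MulAction.fixedBy (SL(2, ℤ) ⧸ Γ) S)
        + 4 * Nat.card (MulAction.fixedBy (SL(2, ℤ) ⧸ Γ) (S * T))
        + 6 * Nat.card (MulAction.orbitRel.Quotient (Subgroup.zpowers T) (SL(2, ℤ) ⧸ Γ))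
      ≤ Nat.card (SL(2, ℤ) ⧸ Γ) + 12 := by
  classical
  let _i1 : Fintype (SL(2, ℤ) ⧸ Γ) := Fintype.ofFinite _
  let _i2 : Fintype (MulAction.orbitRel.Quotient (Subgroup.zpowers T) (SL(2, ℤ) ⧸ Γ)) :=
    Fintype.ofFinite _
  obtain ⟨hfin, hb⟩ := alg_bound_aux Γ hneg
  refine ⟨hfin, ?_⟩
  have h2 := alg_finrank_kerTwo (X := SL(2, ℤ) ⧸ Γ) S (alg_S_S_smul Γ hneg)
  have h3 := alg_finrank_kerThree (X := SL(2, ℤ) ⧸ Γ) (S * T) (alg_U_U_U_smul Γ hneg)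
  omega

/-- (D) for `Γ₀(N)`. FROZEN STATEMENT (proved below from `alg_bound` and the coset counts). -/
theorem es_parabolic_finrank_le (N : ℕ) [NeZero N] :
    Module.Finite ℂ (parabolicHoms ℂ (Gamma0 N) ℂ) ∧
      (Module.finrank ℂ (parabolicHoms ℂ (Gamma0 N) ℂ) : ℚ) ≤ 2 * genusFormula N := by
  have hneg : (-1 : SL(2, ℤ)) ∈ Gamma0 N := by
    rw [Gamma0_mem]
    simp
  obtain ⟨hfin, hb⟩ := alg_bound (Gamma0 N) hneg
  refine ⟨hfin, ?_⟩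
  rw [Fermat.Agent.S20.coset_card_fixedBy_S N, Fermat.Agent.S20.coset_card_fixedBy_ST N,
    Fermat.Agent.S20.coset_card_orbits_T N, Fermat.Agent.S20.coset_card N] at hb
  have hb' : (6 * (Module.finrank ℂ (parabolicHoms ℂ (Gamma0 N) ℂ) : ℚ)
      + 3 * (nuTwo N : ℚ) + 4 * (nuThree N : ℚ) + 6 * (cuspCount N : ℚ))
      ≤ (dedekindPsi N : ℚ) + 12 := by
    exact_mod_cast hb
  rw [genusFormula]
  linarith

end Fermat.Agent.S21
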