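import Mathlib
import Fermat.Prelude.Def_ModularCurve_PeriodHomPair

/-!
# S21 / (B) — the maximum-modulus lemma  (OWNER: helper9)  PROVED (sorry-free)

**Statement.** Let `Φ : ℍ → ℂ` be holomorphic such that
* for every `γ ∈ Γ₀(N)` the function `z ↦ Φ (γ • z) - Φ z` is a constant with real part `0`;
* for every `δ ∈ SL(2, ℤ)` the function `w ↦ Φ (δ • w)` has a limit as `Im w → ∞`.
Then `Φ` is constant.

**Proof sketch** (names prefixed `mm_`).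
1. `Φ ∘ δ` is `N`-periodic for every `δ`: `δ T^N δ⁻¹ ∈ Γ(N) ≤ Γ₀(N)`, so
   `Φ (δ • (w + N)) - Φ (δ • w) = c` for all `w`; letting `Im w → ∞` gives `c = L - L = 0`.
2. Hence `Ψ_δ := cuspFunction N (Φ ∘ δ)` is holomorphic on the open unit disc
   (Mathlib `differentiableOn_cuspFunction_ball`), `Ψ_δ (𝕢 N w) = Φ (δ • w)`.
3. Let `r := exp (-π / N) < 1` (image of `Im w ≥ 1/2`).  `m δ := max of Re Ψ_δ on closedBall 0 r`.
   `m (γ * δ) = m δ` for `γ ∈ Γ₀(N)`, so `m` takes finitely many values (finite index) and has a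
   maximum `M = m δ₀ = Re Ψ_{δ₀} q₀`, `‖q₀‖ ≤ r`.
4. `Re Φ ≤ M` on `ℍ`: for `z : ℍ` choose `g` with `g • z ∈ 𝒟` (`ModularGroup.exists_smul_mem_fd`,
   `Im ≥ √3/2 ≥ 1/2`); `Re Φ z = Re Φ (g⁻¹ • (g • z)) = Re Ψ_{g⁻¹} (𝕢 N (g • z)) ≤ m g⁻¹ ≤ M`.
   Hence `Re Ψ_{δ₀} ≤ M` on the whole open unit disc (every `q ≠ 0` is `𝕢 N w`; `q = 0` is in the
   closed ball).
5. Maximum modulus (`Complex.eqOn_of_isPreconnected_of_isMaxOn_norm`) for `exp ∘ Ψ_{δ₀}` on the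
   unit disc: constant.  So `exp ∘ Φ ∘ δ₀` is constant, so `exp ∘ Φ` is constant on `ℍ`, so
   `Φ' = 0`, so `Φ` is constant (`IsOpen.is_const_of_deriv_eq_zero` on the upper half plane).
-/

set_option autoImplicit false

open UpperHalfPlane CongruenceSubgroup Filter Topology Function
open scoped MatrixGroups Manifold ModularForm

namespace Fermat.Agent.S21

noncomputable section

local notation "𝕢" => Function.Periodic.qParam

/-- `δ T^N δ⁻¹ ∈ Γ₀(N)`. -/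
theorem mm_conj_T_pow_mem (N : ℕ) (δ : SL(2, ℤ)) :
    δ * ModularGroup.T ^ (N : ℤ) * δ⁻¹ ∈ Gamma0 N := by
  rw [Gamma0_mem]
  have hT := ModularGroup.coe_T_zpow (N : ℤ)
  have : (δ * ModularGroup.T ^ (N : ℤ) * δ⁻¹) 1 0 = -(N : ℤ) * (δ 1 0) ^ 2 := by
    rw [Matrix.SpecialLinearGroup.coe_mul, Matrix.SpecialLinearGroup.coe_mul, hT,
      Matrix.SpecialLinearGroup.coe_inv, Matrix.adjugate_fin_two]
    simp [Matrix.mul_apply, Fin.sum_univ_two]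
    ring
  rw [this]
  push_cast
  simp

theorem mm_tendsto_T_zpow (k : ℤ) :
    Tendsto (fun w : ℍ => ModularGroup.T ^ k • w) atImInfty atImInfty := by
  rw [atImInfty, tendsto_comap_iff]
  have : (UpperHalfPlane.im ∘ fun w : ℍ => ModularGroup.T ^ k • w) = UpperHalfPlane.im := by
    funext w
    rw [Function.comp_apply]
    exact ModularGroup.im_T_zpow_smul w k
  rw [this]
  exact tendsto_comap

/-- `Φ ∘ δ` is invariant under `w ↦ w + N`. -/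
theorem mm_T_pow_invariant (N : ℕ) {Φ : ℍ → ℂ}
    (hper : ∀ γ : SL(2, ℤ), γ ∈ Gamma0 N → ∃ c : ℂ, c.re = 0 ∧ ∀ z : ℍ, Φ (γ • z) - Φ z = c)
    (hcusp : ∀ δ : SL(2, ℤ), ∃ L : ℂ, Tendsto (fun w : ℍ => Φ (δ • w)) atImInfty (𝓝 L))
    (δ : SL(2, ℤ)) (w : ℍ) :
    Φ (δ • (ModularGroup.T ^ (N : ℤ) • w)) = Φ (δ • w) := by
  obtain ⟨c, -, hc⟩ := hper _ (mm_conj_T_pow_mem N δ)
  obtain ⟨L, hL⟩ := hcusp δ
  have h1 : ∀ w : ℍ, Φ (δ • (ModularGroup.T ^ (N : ℤ) • w)) - Φ (δ • w) = c := by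
    intro w
    rw [← hc (δ • w), ← mul_smul, ← mul_smul]
    congr 3
    group
  have h2 : Tendsto (fun w : ℍ => Φ (δ • (ModularGroup.T ^ (N : ℤ) • w))) atImInfty (𝓝 L) :=
    hL.comp (mm_tendsto_T_zpow N)
  have h3 : Tendsto (fun w : ℍ => Φ (δ • (ModularGroup.T ^ (N : ℤ) • w)) - Φ (δ • w)) atImInfty
      (𝓝 (L - L)) := h2.sub hL
  have h4 : (fun w : ℍ => Φ (δ • (ModularGroup.T ^ (N : ℤ) • w)) - Φ (δ • w)) = fun _ => c :=
    funext h1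
  rw [h4, sub_self] at h3
  have hc0 : c = 0 := tendsto_nhds_unique tendsto_const_nhds h3
  have := h1 w
  rw [hc0] at this
  exact sub_eq_zero.mp this

/-- `Φ ∘ δ` is `N`-periodic. -/
theorem mm_periodic (N : ℕ) {Φ : ℍ → ℂ}
    (hper : ∀ γ : SL(2, ℤ), γ ∈ Gamma0 N → ∃ c : ℂ, c.re = 0 ∧ ∀ z : ℍ, Φ (γ • z) - Φ z = c)
    (hcusp : ∀ δ : SL(2, ℤ), ∃ L : ℂ, Tendsto (fun w : ℍ => Φ (δ • w)) atImInfty (𝓝 L))
    (δ : SL(2, ℤ)) :
    Function.Periodic ((fun w : ℍ => Φ (δ • w)) ∘ ofComplex) ((N : ℝ) : ℂ) := by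
  intro w
  by_cases hw : 0 < w.im
  · have hw' : 0 < (w + ((N : ℝ) : ℂ)).im := by simpa using hw
    have e : ofComplex (w + ((N : ℝ) : ℂ)) = ModularGroup.T ^ (N : ℤ) • (ofComplex w) := by
      apply UpperHalfPlane.ext
      rw [ModularGroup.coe_T_zpow_smul_eq, ofComplex_apply_of_im_pos hw',
        ofComplex_apply_of_im_pos hw]
      simp
    simp only [Function.comp_apply]
    rw [e]
    exact mm_T_pow_invariant N hper hcusp δ _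
  · have hw1 : w.im ≤ 0 := not_lt.mp hw
    have hw' : (w + ((N : ℝ) : ℂ)).im ≤ 0 := by simpa using hw1
    simp only [Function.comp_apply]
    rw [ofComplex_apply_of_im_nonpos hw', ofComplex_apply_of_im_nonpos hw1]

/-- `Φ ∘ δ` is holomorphic. -/
theorem mm_mdiff {Φ : ℍ → ℂ} (hΦ : ∀ τ : ℍ, DifferentiableAt ℂ (Φ ∘ ofComplex) (τ : ℂ))
    (δ : SL(2, ℤ)) : MDiff (fun w : ℍ => Φ (δ • w)) := by
  have hΦm : MDiff Φ := fun τ => UpperHalfPlane.mdifferentiableAt_iff.mpr (hΦ τ)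
  have e : (fun z : ℍ => Φ (δ • z)) = Φ ∣[(0 : ℤ)] δ := by
    funext z
    rw [ModularForm.SL_slash_apply]
    simp
  rw [e, ModularForm.SL_slash]
  exact hΦm.slash _ _

/-- The cusp function of `Φ ∘ δ` (period `N`). -/
def mmPsi (N : ℕ) (Φ : ℍ → ℂ) (δ : SL(2, ℤ)) : ℂ → ℂ :=
  cuspFunction (N : ℝ) (fun w : ℍ => Φ (δ • w))

theorem mm_psi_diff (N : ℕ) [NeZero N] {Φ : ℍ → ℂ}
    (hΦ : ∀ τ : ℍ, DifferentiableAt ℂ (Φ ∘ ofComplex) (τ : ℂ))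
    (hper : ∀ γ : SL(2, ℤ), γ ∈ Gamma0 N → ∃ c : ℂ, c.re = 0 ∧ ∀ z : ℍ, Φ (γ • z) - Φ z = c)
    (hcusp : ∀ δ : SL(2, ℤ), ∃ L : ℂ, Tendsto (fun w : ℍ => Φ (δ • w)) atImInfty (𝓝 L))
    (δ : SL(2, ℤ)) : DifferentiableOn ℂ (mmPsi N Φ δ) (Metric.ball 0 1) := by
  have hNpos : (0 : ℝ) < (N : ℝ) := Nat.cast_pos.mpr (NeZero.pos N)
  obtain ⟨L, hL⟩ := hcusp δ
  exact differentiableOn_cuspFunction_ball hNpos (mm_periodic N hper hcusp δ) (mm_mdiff hΦ δ)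
    (hL.isBigO_one ℝ)

theorem mm_psi_eq (N : ℕ) [NeZero N] {Φ : ℍ → ℂ}
    (hper : ∀ γ : SL(2, ℤ), γ ∈ Gamma0 N → ∃ c : ℂ, c.re = 0 ∧ ∀ z : ℍ, Φ (γ • z) - Φ z = c)
    (hcusp : ∀ δ : SL(2, ℤ), ∃ L : ℂ, Tendsto (fun w : ℍ => Φ (δ • w)) atImInfty (𝓝 L))
    (δ : SL(2, ℤ)) (w : ℍ) : mmPsi N Φ δ (𝕢 (N : ℝ) w) = Φ (δ • w) := by
  have hNpos : (0 : ℝ) < (N : ℝ) := Nat.cast_pos.mpr (NeZero.pos N)
  exact eq_cuspFunction (f := fun w : ℍ => Φ (δ • w)) w hNpos.ne' (mm_periodic N hper hcusp δ)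

/-- If `exp ∘ Φ` is constant then `Φ` is constant. -/
theorem mm_const_of_exp_const {Φ : ℍ → ℂ}
    (hΦ : ∀ τ : ℍ, DifferentiableAt ℂ (Φ ∘ ofComplex) (τ : ℂ)) {C' : ℂ}
    (hexp : ∀ z : ℍ, Complex.exp (Φ z) = C') : ∃ C : ℂ, ∀ z : ℍ, Φ z = C := by
  have hderiv : {z : ℂ | 0 < z.im}.EqOn (deriv (Φ ∘ ofComplex)) 0 := by
    intro z hz
    have h1 : HasDerivAt (fun x => Complex.exp ((Φ ∘ ofComplex) x))
        (Complex.exp ((Φ ∘ ofComplex) z) * deriv (Φ ∘ ofComplex) z) z :=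
      (hΦ ⟨z, hz⟩).hasDerivAt.cexp
    have h2 : (fun x => Complex.exp ((Φ ∘ ofComplex) x)) =ᶠ[𝓝 z] fun _ => C' := by
      filter_upwards [isOpen_upperHalfPlaneSet.mem_nhds hz] with x hx
      exact hexp _
    have h3 : HasDerivAt (fun _ : ℂ => C')
        (Complex.exp ((Φ ∘ ofComplex) z) * deriv (Φ ∘ ofComplex) z) z :=
      h1.congr_of_eventuallyEq h2.symm
    have h4 := h3.unique (hasDerivAt_const z C')
    rcases mul_eq_zero.mp h4 with h | h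
    · exact absurd h (Complex.exp_ne_zero _)
    · exact h
  have hdiff : DifferentiableOn ℂ (Φ ∘ ofComplex) {z : ℂ | 0 < z.im} := fun z hz =>
    (hΦ ⟨z, hz⟩).differentiableWithinAt
  obtain ⟨a, ha⟩ := isOpen_upperHalfPlaneSet.exists_is_const_of_deriv_eq_zero
    (convex_halfSpace_im_gt 0).isPreconnected hdiff hderiv
  refine ⟨a, fun z => ?_⟩
  have := ha (z : ℂ) z.im_pos
  simpa using this

/-- (B) The maximum-modulus lemma. FROZEN STATEMENT. -/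
theorem es_const_of_imag_periods (N : ℕ) [NeZero N] {Φ : ℍ → ℂ}
    (hΦ : ∀ τ : ℍ, DifferentiableAt ℂ (Φ ∘ ofComplex) (τ : ℂ))
    (hper : ∀ γ : SL(2, ℤ), γ ∈ Gamma0 N → ∃ c : ℂ, c.re = 0 ∧ ∀ z : ℍ, Φ (γ • z) - Φ z = c)
    (hcusp : ∀ δ : SL(2, ℤ), ∃ L : ℂ, Tendsto (fun w : ℍ => Φ (δ • w)) atImInfty (𝓝 L)) :
    ∃ C : ℂ, ∀ z : ℍ, Φ z = C := by
  have hNpos : (0 : ℝ) < (N : ℝ) := Nat.cast_pos.mpr (NeZero.pos N)
  obtain ⟨r, hr⟩ : ∃ r : ℝ, r = Real.exp (-Real.pi / N) := ⟨_, rfl⟩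
  have hr1 : r < 1 := by
    rw [hr]
    exact Real.exp_lt_one_iff.mpr (div_neg_of_neg_of_pos (neg_lt_zero.mpr Real.pi_pos) hNpos)
  have hr0 : 0 ≤ r := by rw [hr]; exact (Real.exp_pos _).le
  have hK : IsCompact (Metric.closedBall (0 : ℂ) r) := isCompact_closedBall 0 r
  have hKsub : Metric.closedBall (0 : ℂ) r ⊆ Metric.ball 0 1 := Metric.closedBall_subset_ball hr1
  have hKne : (Metric.closedBall (0 : ℂ) r).Nonempty := ⟨0, by simp [hr0]⟩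
  have h0K : (0 : ℂ) ∈ Metric.closedBall (0 : ℂ) r := by simp [hr0]
  -- for each `δ` the maximum of `Re Ψ_δ` on `K`
  have hmax : ∀ δ : SL(2, ℤ), ∃ q ∈ Metric.closedBall (0 : ℂ) r,
      ∀ q' ∈ Metric.closedBall (0 : ℂ) r, (mmPsi N Φ δ q').re ≤ (mmPsi N Φ δ q).re := by
    intro δ
    have hcont : ContinuousOn (fun q => (mmPsi N Φ δ q).re) (Metric.closedBall (0 : ℂ) r) :=
      Complex.continuous_re.comp_continuousOn
        ((mm_psi_diff N hΦ hper hcusp δ).continuousOn.mono hKsub)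
    obtain ⟨q, hq, hqmax⟩ := hK.exists_isMaxOn hKne hcont
    exact ⟨q, hq, fun q' hq' => hqmax hq'⟩
  choose qmax hqK hqmax using hmax
  -- the maximum over the finitely many cosets
  have hfinQ : Finite (SL(2, ℤ) ⧸ Gamma0 N) := Subgroup.finite_quotient_of_finiteIndex
  obtain ⟨x₀, hx₀⟩ := Finite.exists_max
    (fun x : SL(2, ℤ) ⧸ Gamma0 N => (mmPsi N Φ (Quotient.out x)⁻¹ (qmax (Quotient.out x)⁻¹)).re)
  obtain ⟨δ₀, hδ₀⟩ : ∃ δ₀ : SL(2, ℤ), δ₀ = (Quotient.out x₀)⁻¹ := ⟨_, rfl⟩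
  rw [← hδ₀] at hx₀
  -- the bound on `ℍ`
  have hbound : ∀ z : ℍ, (Φ z).re ≤ (mmPsi N Φ δ₀ (qmax δ₀)).re := by
    intro z
    obtain ⟨g, hg⟩ := ModularGroup.exists_smul_mem_fd z
    have him : 1 / 2 ≤ (g • z).im := by
      have h3 := ModularGroup.three_le_four_mul_im_sq_of_mem_fd hg
      have hpos := (g • z).im_pos
      nlinarith
    obtain ⟨γ, hγ⟩ := QuotientGroup.mk_out_eq_mul (Gamma0 N) g
    have hz : z = (γ : SL(2, ℤ)) • ((Quotient.out (g : SL(2, ℤ) ⧸ Gamma0 N))⁻¹ • (g • z)) := by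
      rw [hγ, ← mul_smul, ← mul_smul]
      have : (γ : SL(2, ℤ)) * (g * (γ : SL(2, ℤ)))⁻¹ * g = 1 := by group
      rw [this, one_smul]
    obtain ⟨c, hc0, hc⟩ := hper γ γ.2
    have h1 : Φ z = Φ ((Quotient.out (g : SL(2, ℤ) ⧸ Gamma0 N))⁻¹ • (g • z)) + c := by
      have := hc ((Quotient.out (g : SL(2, ℤ) ⧸ Gamma0 N))⁻¹ • (g • z))
      rw [← hz] at this
      linear_combination this
    have hqK' : 𝕢 (N : ℝ) ((g • z : ℍ) : ℂ) ∈ Metric.closedBall (0 : ℂ) r := by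
      rw [mem_closedBall_zero_iff, Function.Periodic.norm_qParam, hr]
      apply Real.exp_le_exp.mpr
      rw [div_le_div_iff_of_pos_right hNpos]
      have : (1 : ℝ) / 2 ≤ ((g • z : ℍ) : ℂ).im := him
      nlinarith [Real.pi_pos]
    rw [h1, Complex.add_re, hc0, add_zero, ← mm_psi_eq N hper hcusp]
    exact (hqmax _ _ hqK').trans (hx₀ (g : SL(2, ℤ) ⧸ Gamma0 N))
  -- the bound on the unit disc
  have hball : ∀ q ∈ Metric.ball (0 : ℂ) 1, (mmPsi N Φ δ₀ q).re ≤ (mmPsi N Φ δ₀ (qmax δ₀)).re := by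
    intro q hq
    by_cases hq0 : q = 0
    · subst hq0
      exact hqmax δ₀ 0 h0K
    · have him := Function.Periodic.im_invQParam_pos_of_norm_lt_one hNpos
        (mem_ball_zero_iff.mp hq) hq0
      have h1 : 𝕢 (N : ℝ) ((⟨Function.Periodic.invQParam (N : ℝ) q, him⟩ : ℍ) : ℂ) = q :=
        Function.Periodic.qParam_right_inv hNpos.ne' hq0
      rw [← h1, mm_psi_eq N hper hcusp]
      exact hbound _
  -- maximum modulus
  have hdiff : DifferentiableOn ℂ (fun q => Complex.exp (mmPsi N Φ δ₀ q)) (Metric.ball 0 1) :=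
    (mm_psi_diff N hΦ hper hcusp δ₀).cexp
  have hq₀ : qmax δ₀ ∈ Metric.ball (0 : ℂ) 1 := hKsub (hqK δ₀)
  have hmaxon : IsMaxOn (norm ∘ fun q => Complex.exp (mmPsi N Φ δ₀ q)) (Metric.ball 0 1)
      (qmax δ₀) := by
    intro q hq
    simp only [Function.comp_apply, Complex.norm_exp]
    exact Real.exp_le_exp.mpr (hball q hq)
  have heq := Complex.eqOn_of_isPreconnected_of_isMaxOn_norm (convex_ball (0 : ℂ) 1).isPreconnected
    Metric.isOpen_ball hdiff hq₀ hmaxon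
  -- `exp ∘ Φ` is constant
  refine mm_const_of_exp_const hΦ (C' := Complex.exp (mmPsi N Φ δ₀ (qmax δ₀))) fun z => ?_
  have hqz : 𝕢 (N : ℝ) ((δ₀⁻¹ • z : ℍ) : ℂ) ∈ Metric.ball (0 : ℂ) 1 := by
    rw [mem_ball_zero_iff]
    exact Function.Periodic.norm_qParam_lt_one hNpos (δ₀⁻¹ • z).im_pos
  have h1 := heq hqz
  simp only [Function.const_apply] at h1
  rw [mm_psi_eq N hper hcusp, ← mul_smul, mul_inv_cancel, one_smul] at h1
  exact h1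

end

end Fermat.Agent.S21
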