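import Fermat.Agent.S21.Period
import Fermat.Agent.S21.MaxMod

/-!
# S21 / (C) — injectivity  (OWNER: helper9)  PROVED (sorry-free)

Let `P = periodMap N f`, `c = charInvolution` (precomposition with `γ ↦ εγε`, `ε = diag(1,-1)`),
`F` the equivariant primitive of `f` and `F⋆ τ := conj (F (-conj τ))` (holomorphic, with
`F⋆ (γ τ) - F⋆ τ = conj (P (εγε))` and limits at all cusps).

* If `P + cP = 0`: `F + F⋆` has periods `P γ - conj (P γ) ∈ iℝ`, so it is constant (MaxMod), so
  `F⋆` has periods `-P γ`, i.e. `conj (P (εγε)) = - P γ = P (εγε)`: all periods are real. Then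
  `i F` has purely imaginary periods, so `F` is constant (MaxMod) and `f = F' = 0`.
* If `P - cP = 0`: the same with `F - F⋆`.
-/

set_option autoImplicit false

open UpperHalfPlane CongruenceSubgroup Filter Topology ModularCurve ModularCurve.Period
open scoped MatrixGroups ComplexConjugate

namespace Fermat.Agent.S21

noncomputable section

/-- `-conj (γ τ) = (εγε) (-conj τ)`. -/
theorem inj_J_smul (γ : SL(2, ℤ)) (τ : ℍ) : J • (γ • τ) = (jConjSL γ) • (J • τ) := by
  apply UpperHalfPlane.ext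
  rw [coe_J_smul, coe_specialLinearGroup_apply, coe_specialLinearGroup_apply, coe_J_smul]
  simp only [jConjSL_coe, jConjMat_apply_zero_zero, jConjMat_apply_zero_one,
    jConjMat_apply_one_zero, jConjMat_apply_one_one, algebraMap_int_eq, Int.coe_castRingHom,
    Int.cast_neg, Complex.ofReal_neg, Complex.ofReal_intCast, map_div₀, map_add, map_mul,
    map_intCast]
  have h1 : (γ 1 0 : ℂ) * conj (τ : ℂ) + (γ 1 1 : ℂ) ≠ 0 := by
    intro h
    have h2 := congrArg conj h
    simp only [map_add, map_mul, map_intCast, Complex.conj_conj, map_zero] at h2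
    have h3 := UpperHalfPlane.denom_ne_zero (γ : GL (Fin 2) ℝ) τ
    apply h3
    simpa [UpperHalfPlane.denom] using h2
  have h2 : -(γ 1 0 : ℂ) * -conj (τ : ℂ) + (γ 1 1 : ℂ) ≠ 0 := by
    have : -(γ 1 0 : ℂ) * -conj (τ : ℂ) + (γ 1 1 : ℂ)
        = (γ 1 0 : ℂ) * conj (τ : ℂ) + (γ 1 1 : ℂ) := by ring
    rw [this]; exact h1
  field_simp
  ring

theorem inj_tendsto_J : Tendsto (fun w : ℍ => J • w) atImInfty atImInfty := by
  rw [atImInfty, tendsto_comap_iff]
  have : (UpperHalfPlane.im ∘ fun w : ℍ => J • w) = UpperHalfPlane.im := by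
    funext w
    rw [Function.comp_apply]
    have := congrArg Complex.im (coe_J_smul w)
    simpa using this
  rw [this]
  exact tendsto_comap

/-- `F⋆ τ = conj (F (-conj τ))`. -/
def injStar (F : ℍ → ℂ) : ℍ → ℂ := fun τ => conj (F (J • τ))

theorem inj_star_diff {F : ℍ → ℂ} (hF : ∀ τ : ℍ, DifferentiableAt ℂ (F ∘ ofComplex) (τ : ℂ))
    (τ : ℍ) : DifferentiableAt ℂ (injStar F ∘ ofComplex) (τ : ℂ) := by
  -- `G z = (F ∘ ofComplex) (-z)` is differentiable at `conj τ`
  have h1 : DifferentiableAt ℂ (fun z : ℂ => (F ∘ ofComplex) (-z)) (conj (τ : ℂ)) := by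
    have h2 : DifferentiableAt ℂ (F ∘ ofComplex) (-(conj (τ : ℂ))) := by
      have := hF (J • τ)
      rwa [coe_J_smul] at this
    exact h2.comp _ differentiableAt_id.neg
  have h3 := h1.conj_conj
  rw [Complex.conj_conj] at h3
  refine h3.congr_of_eventuallyEq ?_
  filter_upwards [isOpen_upperHalfPlaneSet.mem_nhds τ.im_pos] with z hz
  simp only [Function.comp_apply, injStar]
  rw [ofComplex_apply_of_im_pos hz, J_smul]

theorem inj_star_period {F : ℍ → ℂ} (γ : SL(2, ℤ)) {c : ℂ}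
    (h : ∀ z : ℍ, F ((jConjSL γ) • z) - F z = c) (z : ℍ) :
    injStar F (γ • z) - injStar F z = conj c := by
  simp only [injStar]
  rw [inj_J_smul, ← map_sub, h]

theorem inj_star_cusp {F : ℍ → ℂ}
    (hcusp : ∀ δ : SL(2, ℤ), ∃ L : ℂ, Tendsto (fun w : ℍ => F (δ • w)) atImInfty (𝓝 L))
    (δ : SL(2, ℤ)) : ∃ L : ℂ, Tendsto (fun w : ℍ => injStar F (δ • w)) atImInfty (𝓝 L) := by
  obtain ⟨L, hL⟩ := hcusp (jConjSL δ)
  refine ⟨conj L, ?_⟩
  have h1 : Tendsto (fun w : ℍ => F ((jConjSL δ) • (J • w))) atImInfty (𝓝 L) :=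
    hL.comp inj_tendsto_J
  have h2 := (Complex.continuous_conj.tendsto L).comp h1
  refine h2.congr fun w => ?_
  simp only [Function.comp_apply, injStar]
  rw [inj_J_smul]

/-- If all periods of `f` are real then `f = 0`. -/
theorem inj_of_real_periods (N : ℕ) [NeZero N] (f : CuspForm (Gamma0 N) 2)
    (hreal : ∀ γ : Gamma0 N, (periodMap N f (Additive.ofMul γ)).im = 0) : f = 0 := by
  obtain ⟨F, hF⟩ := es_exists_primitive N f
  have hdiff : ∀ τ : ℍ, DifferentiableAt ℂ ((fun z : ℍ => Complex.I * F z) ∘ ofComplex) (τ : ℂ) :=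
    fun τ => ((hF.1 τ).differentiableAt).const_mul Complex.I
  have hper : ∀ γ : SL(2, ℤ), γ ∈ Gamma0 N → ∃ c : ℂ, c.re = 0 ∧
      ∀ z : ℍ, (fun z : ℍ => Complex.I * F z) (γ • z) - (fun z : ℍ => Complex.I * F z) z = c := by
    intro γ hγ
    refine ⟨Complex.I * periodMap N f (Additive.ofMul (⟨γ, hγ⟩ : Gamma0 N)), ?_, fun z => ?_⟩
    · simp [hreal ⟨γ, hγ⟩]
    · rw [es_periodMap_apply N f hF ⟨γ, hγ⟩ z]
      simp only
      ring
  have hcusp : ∀ δ : SL(2, ℤ), ∃ L : ℂ,
      Tendsto (fun w : ℍ => (fun z : ℍ => Complex.I * F z) (δ • w)) atImInfty (𝓝 L) := by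
    intro δ
    obtain ⟨L, hL⟩ := hF.2.2.2 δ
    exact ⟨Complex.I * L, hL.const_mul Complex.I⟩
  obtain ⟨C, hC⟩ := es_const_of_imag_periods N hdiff hper hcusp
  have hFc : ∀ z : ℍ, F z = -Complex.I * C := by
    intro z
    have := hC z
    rw [← this, ← mul_assoc]
    simp
  refine DFunLike.ext f 0 fun τ => ?_
  have h1 := hF.1 τ
  have h2 : (F ∘ ofComplex) =ᶠ[𝓝 (τ : ℂ)] fun _ => -Complex.I * C := by
    filter_upwards with z
    exact hFc _
  have h3 := (h1.congr_of_eventuallyEq h2.symm).unique (hasDerivAt_const (τ : ℂ) (-Complex.I * C))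
  rw [h3]
  rfl

/-- Common part of (C±): if `F ± F⋆` has purely imaginary periods `P γ - conj (P γ)`, the periods
are real. -/
theorem inj_real_of_sign (N : ℕ) [NeZero N] (f : CuspForm (Gamma0 N) 2) (s : ℂ)
    (hs : s = 1 ∨ s = -1)
    (hj : ∀ γ : Gamma0 N, periodMap N f (Additive.ofMul (jConjGamma0 N γ))
      = -s * periodMap N f (Additive.ofMul γ)) :
    ∀ γ : Gamma0 N, (periodMap N f (Additive.ofMul γ)).im = 0 := by
  obtain ⟨F, hF⟩ := es_exists_primitive N f
  have hsconj : conj s = s := by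
    rcases hs with rfl | rfl <;> simp
  have hss : s * s = 1 := by
    rcases hs with rfl | rfl <;> simp
  -- periods of `Φ = F + s F⋆`
  have hperiod : ∀ (γ : Gamma0 N) (z : ℍ),
      (fun z : ℍ => F z + s * injStar F z) ((γ : SL(2, ℤ)) • z)
        - (fun z : ℍ => F z + s * injStar F z) z
      = periodMap N f (Additive.ofMul γ) - conj (periodMap N f (Additive.ofMul γ)) := by
    intro γ z
    have h1 := es_periodMap_apply N f hF γ z
    have h2 := inj_star_period (F := F) (γ : SL(2, ℤ))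
      (c := periodMap N f (Additive.ofMul (jConjGamma0 N γ)))
      (fun z => (es_periodMap_apply N f hF (jConjGamma0 N γ) z).symm) z
    rw [hj γ, map_mul, map_neg, hsconj] at h2
    simp only
    have : F ((γ : SL(2, ℤ)) • z) + s * injStar F ((γ : SL(2, ℤ)) • z) - (F z + s * injStar F z)
        = (F ((γ : SL(2, ℤ)) • z) - F z)
          + s * (injStar F ((γ : SL(2, ℤ)) • z) - injStar F z) := by ring
    rw [this, h2, ← h1]
    linear_combination (-(conj (periodMap N f (Additive.ofMul γ)))) * hss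
  have hdiff : ∀ τ : ℍ,
      DifferentiableAt ℂ ((fun z : ℍ => F z + s * injStar F z) ∘ ofComplex) (τ : ℂ) := by
    intro τ
    have h1 : DifferentiableAt ℂ (F ∘ ofComplex) (τ : ℂ) := (hF.1 τ).differentiableAt
    have h2 : DifferentiableAt ℂ (injStar F ∘ ofComplex) (τ : ℂ) :=
      inj_star_diff (fun τ => (hF.1 τ).differentiableAt) τ
    exact h1.add (h2.const_mul s)
  have hper : ∀ γ : SL(2, ℤ), γ ∈ Gamma0 N → ∃ c : ℂ, c.re = 0 ∧
      ∀ z : ℍ, (fun z : ℍ => F z + s * injStar F z) (γ • z)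
        - (fun z : ℍ => F z + s * injStar F z) z = c := by
    intro γ hγ
    refine ⟨_, ?_, fun z => hperiod ⟨γ, hγ⟩ z⟩
    simp
  have hcusp : ∀ δ : SL(2, ℤ), ∃ L : ℂ,
      Tendsto (fun w : ℍ => (fun z : ℍ => F z + s * injStar F z) (δ • w)) atImInfty (𝓝 L) := by
    intro δ
    obtain ⟨L, hL⟩ := hF.2.2.2 δ
    obtain ⟨L', hL'⟩ := inj_star_cusp hF.2.2.2 δ
    exact ⟨L + s * L', hL.add (hL'.const_mul s)⟩
  obtain ⟨C, hC⟩ := es_const_of_imag_periods N hdiff hper hcusp
  intro γ
  have h1 := hperiod γ UpperHalfPlane.I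
  beta_reduce at h1
  rw [hC, hC, sub_self] at h1
  have h2 := congrArg Complex.im h1
  simp only [Complex.zero_im, Complex.sub_im, Complex.conj_im, sub_neg_eq_add] at h2
  linarith

/-- (C+) FROZEN STATEMENT. -/
theorem es_injective_plus (N : ℕ) [NeZero N] (f : CuspForm (Gamma0 N) 2)
    (h : periodMap N f + charInvolution N ℂ ℂ (periodMap N f) = 0) : f = 0 := by
  refine inj_of_real_periods N f (inj_real_of_sign N f 1 (Or.inl rfl) fun γ => ?_)
  have h1 := congrArg (fun ψ : Additive (Gamma0 N) →+ ℂ => ψ (Additive.ofMul γ)) h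
  simp only [AddMonoidHom.add_apply, charInvolution_apply, toMul_ofMul,
    AddMonoidHom.zero_apply] at h1
  linear_combination h1

/-- (C-) FROZEN STATEMENT. -/
theorem es_injective_minus (N : ℕ) [NeZero N] (f : CuspForm (Gamma0 N) 2)
    (h : periodMap N f - charInvolution N ℂ ℂ (periodMap N f) = 0) : f = 0 := by
  refine inj_of_real_periods N f (inj_real_of_sign N f (-1) (Or.inr rfl) fun γ => ?_)
  have h1 := congrArg (fun ψ : Additive (Gamma0 N) →+ ℂ => ψ (Additive.ofMul γ)) h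
  simp only [AddMonoidHom.sub_apply, charInvolution_apply, toMul_ofMul,
    AddMonoidHom.zero_apply] at h1
  linear_combination -h1

end

end Fermat.Agent.S21
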