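import Fermat.Agent.S21.Period
import Fermat.Agent.S21.Inject
import Fermat.Agent.S21.AlgBound

/-!
# S21 / (E) — assembly  (OWNER: helper9)

`es_main`: the S21 statement from the pieces (A), (C), (D) and the S20 dimension formula
(taken as a hypothesis here; `S21.lean` feeds `Fermat.Agent.S20.result`).
-/

set_option autoImplicit false

open UpperHalfPlane CongruenceSubgroup Filter Topology ModularCurve ModularCurve.Period
open scoped MatrixGroups

namespace Fermat.Agent.S21

theorem es_main (N : ℕ) [NeZero N]
    (hdim : (Module.finrank ℂ (CuspForm (Gamma0 N) 2) : ℚ) = genusFormula N) :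
    Function.Injective (periodHomPair N) ∧
      LinearMap.range (periodHomPair N) = parabolicHoms ℂ (Gamma0 N) ℂ := by
  obtain ⟨pml, hpml, hdef⟩ := periodHomPair_def N (es_existsPeriodMapLinear N)
  have hval : ∀ f g : CuspForm (Gamma0 N) 2, periodHomPair N (f, g)
      = (periodMap N f + charInvolution N ℂ ℂ (periodMap N f))
        + (periodMap N g - charInvolution N ℂ ℂ (periodMap N g)) := by
    intro f g
    rw [hdef]
    simp [LinearMap.coprod_apply, hpml]
  have hinj : Function.Injective (periodHomPair N) := by
    rw [injective_iff_map_eq_zero]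
    rintro ⟨f, g⟩ h
    rw [hval] at h
    have h' := congrArg (charInvolution N ℂ ℂ) h
    rw [map_add, map_add, map_sub, charInvolution_charInvolution,
      charInvolution_charInvolution, map_zero] at h'
    have hf : periodMap N f + charInvolution N ℂ ℂ (periodMap N f) = 0 := by
      have h2 : (2 : ℂ) • (periodMap N f + charInvolution N ℂ ℂ (periodMap N f)) = 0 := by
        rw [two_smul]
        have := congrArg₂ (· + ·) h h'
        simp only [add_zero] at this
        rw [← this]
        abel
      exact (smul_eq_zero.mp h2).resolve_left two_ne_zero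
    have hg : periodMap N g - charInvolution N ℂ ℂ (periodMap N g) = 0 := by
      rw [hf, zero_add] at h
      exact h
    rw [es_injective_plus N f hf, es_injective_minus N g hg]
    rfl
  refine ⟨hinj, ?_⟩
  have hle : LinearMap.range (periodHomPair N) ≤ parabolicHoms ℂ (Gamma0 N) ℂ := by
    rintro _ ⟨⟨f, g⟩, rfl⟩
    rw [hval]
    have hf := es_periodMap_parabolic N f
    have hg := es_periodMap_parabolic N g
    exact add_mem (add_mem hf (charInvolution_mem_parabolicHoms N ℂ ℂ hf))
      (sub_mem hg (charInvolution_mem_parabolicHoms N ℂ ℂ hg))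
  obtain ⟨hfin, hbound⟩ := es_parabolic_finrank_le N
  haveI := hfin
  -- finite-dimensionality of the source
  let ι : (CuspForm (Gamma0 N) 2 × CuspForm (Gamma0 N) 2) →ₗ[ℂ] parabolicHoms ℂ (Gamma0 N) ℂ :=
    LinearMap.codRestrict _ (periodHomPair N) fun x => hle ⟨x, rfl⟩
  have hιinj : Function.Injective ι := fun x y hxy => hinj (congrArg Subtype.val hxy)
  haveI : FiniteDimensional ℂ (CuspForm (Gamma0 N) 2 × CuspForm (Gamma0 N) 2) :=
    FiniteDimensional.of_injective ι hιinj
  haveI : FiniteDimensional ℂ (CuspForm (Gamma0 N) 2) :=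
    FiniteDimensional.of_injective (LinearMap.inl ℂ _ (CuspForm (Gamma0 N) 2))
      LinearMap.inl_injective
  have hrange : Module.finrank ℂ (LinearMap.range (periodHomPair N))
      = 2 * Module.finrank ℂ (CuspForm (Gamma0 N) 2) := by
    rw [LinearMap.finrank_range_of_inj hinj, Module.finrank_prod, two_mul]
  refine Submodule.eq_of_le_of_finrank_le hle ?_
  rw [hrange]
  have : (Module.finrank ℂ (parabolicHoms ℂ (Gamma0 N) ℂ) : ℚ)
      ≤ ((2 * Module.finrank ℂ (CuspForm (Gamma0 N) 2) : ℕ) : ℚ) := by
    push_cast
    rw [hdim]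
    exact hbound
  exact_mod_cast this

end Fermat.Agent.S21
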