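import Mathlib
import Fermat.Prelude.Def_ModularCurve_PeriodHomPair
import Fermat.Agent.S22.Eichler
import Fermat.Prelude.Thm_Subgroup_IsArithmetic_exists_nat_mem_strictPeriods_conj

/-!
# S21 / (A) auxiliary lemmas: derivatives of functions on the upper half plane  (OWNER: helper9)
-/

set_option autoImplicit false

open UpperHalfPlane CongruenceSubgroup Filter Topology ModularCurve ModularCurve.Period
open ModularForm Derivative
open scoped MatrixGroups Manifold ModularForm Pointwise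

namespace Fermat.Agent.S21

noncomputable section

/-- `2πi ≠ 0`. -/
theorem per_two_pi_I_ne_zero : (2 * (Real.pi : ℂ) * Complex.I) ≠ 0 := by
  simp [Real.pi_ne_zero]

/-- A function on `ℍ` all of whose derivatives (in the sense of `F ∘ ofComplex`) exist is
holomorphic. -/
theorem per_mdiff_of_hasDerivAt {F f : ℍ → ℂ}
    (h : ∀ τ : ℍ, HasDerivAt (F ∘ ofComplex) (f τ) (τ : ℂ)) : MDiff F := fun τ =>
  UpperHalfPlane.mdifferentiableAt_iff.mpr (h τ).differentiableAt

/-- `D F` for a function with known derivative. -/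
theorem per_D_of_hasDerivAt {F f : ℍ → ℂ}
    (h : ∀ τ : ℍ, HasDerivAt (F ∘ ofComplex) (f τ) (τ : ℂ)) :
    D F = (2 * (Real.pi : ℂ) * Complex.I)⁻¹ • f := by
  funext τ
  simp only [normalizedDerivOfComplex, (h τ).deriv, Pi.smul_apply, smul_eq_mul]

/-- From `D F = (2πi)⁻¹ • f`: the function `F` has derivative `f`. -/
theorem per_hasDerivAt_of_D_eq {F f : ℍ → ℂ} (hF : MDiff F)
    (hD : D F = (2 * (Real.pi : ℂ) * Complex.I)⁻¹ • f) (τ : ℍ) :
    HasDerivAt (F ∘ ofComplex) (f τ) (τ : ℂ) := by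
  have hdiff : DifferentiableAt ℂ (F ∘ ofComplex) (τ : ℂ) :=
    UpperHalfPlane.mdifferentiableAt_iff.mp (hF τ)
  have h1 : HasDerivAt (F ∘ ofComplex) (deriv (F ∘ ofComplex) τ) (τ : ℂ) := hdiff.hasDerivAt
  have h3 : deriv (F ∘ ofComplex) (τ : ℂ) = f τ := by
    have := congrFun hD τ
    simp only [normalizedDerivOfComplex, Pi.smul_apply, smul_eq_mul] at this
    exact mul_left_cancel₀ (inv_ne_zero per_two_pi_I_ne_zero) this
  rw [h3] at h1
  exact h1

/-- Two holomorphic functions on `ℍ` with the same derivative differ by a constant. -/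
theorem per_exists_const {F G f : ℍ → ℂ}
    (hF : ∀ τ : ℍ, HasDerivAt (F ∘ ofComplex) (f τ) (τ : ℂ))
    (hG : ∀ τ : ℍ, HasDerivAt (G ∘ ofComplex) (f τ) (τ : ℂ)) :
    ∃ c : ℂ, ∀ z : ℍ, F z - G z = c := by
  have h1 : MDiff (F - G) := (per_mdiff_of_hasDerivAt hF).sub (per_mdiff_of_hasDerivAt hG)
  have h2 : D (F - G) = 0 := by
    rw [normalizedDerivOfComplex_sub _ _ (per_mdiff_of_hasDerivAt hF) (per_mdiff_of_hasDerivAt hG),
      per_D_of_hasDerivAt hF, per_D_of_hasDerivAt hG, sub_self]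
  obtain ⟨c, hc⟩ := Fermat.Agent.S22.exists_const_of_D_eq_zero h1 h2
  exact ⟨c, fun z => hc z⟩

/-- The derivative of `F ∘ γ` for `γ ∈ SL(2, ℤ)`. -/
theorem per_D_comp_SL {F f : ℍ → ℂ}
    (hF : ∀ τ : ℍ, HasDerivAt (F ∘ ofComplex) (f τ) (τ : ℂ)) (γ : SL(2, ℤ)) :
    MDiff (fun z : ℍ => F (γ • z)) ∧
      D (fun z : ℍ => F (γ • z)) = (2 * (Real.pi : ℂ) * Complex.I)⁻¹ • (f ∣[(2 : ℤ)] γ) := by
  have hFm := per_mdiff_of_hasDerivAt hF
  have e : (fun z : ℍ => F (γ • z)) = F ∣[(0 : ℤ)] γ := by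
    funext z
    rw [ModularForm.SL_slash_apply]
    simp
  rw [e]
  refine ⟨?_, ?_⟩
  · rw [ModularForm.SL_slash]; exact hFm.slash _ _
  · rw [normalizedDerivOfComplex_SL_slash hFm, per_D_of_hasDerivAt hF]
    funext z
    simp

end

end Fermat.Agent.S21
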