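import Mathlib
import Fermat.Prelude.Def_ModularCurve_PeriodHomPair
import Fermat.Agent.S22.Eichler
import Fermat.Prelude.Thm_Subgroup_IsArithmetic_exists_nat_mem_strictPeriods_conj
import Fermat.Agent.S21.PeriodAux

/-!
# S21 / (A) — equivariant primitives and the period map  (OWNER: helper9)  PROVED (sorry-free)

* `es_exists_primitive`: every `f ∈ S₂(Γ₀(N))` has an equivariant primitive in the prelude's sense
  (`F' = f`, `F → 0` at `i∞`, `F ∘ γ - F` constant for `γ ∈ Γ₀(N)`, limits at all cusps).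
* `es_primitive_unique`, `es_periodMap_apply`: the primitive is unique, so `periodMap N f` is
  computed by any equivariant primitive.
* `es_existsPeriodMapLinear`: the period map is linear.
* `es_periodMap_parabolic`: periods vanish on all `γ` with `tr² = 4`.
-/

set_option autoImplicit false

open UpperHalfPlane CongruenceSubgroup Filter Topology ModularCurve ModularCurve.Period
open ModularForm Derivative
open scoped MatrixGroups Manifold ModularForm Pointwise

namespace Fermat.Agent.S21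

noncomputable section

/-- A primitive vanishing at `i∞` of a periodic holomorphic function vanishing at `i∞`. -/
theorem per_exists_primitive_of_cuspidal {g : ℍ → ℂ} {h : ℝ} (hh : 0 < h)
    (hg : Fermat.Agent.S22.IsCuspidalFun h g) :
    ∃ G : ℍ → ℂ, (∀ τ : ℍ, HasDerivAt (G ∘ ofComplex) (g τ) (τ : ℂ)) ∧
      Tendsto G atImInfty (𝓝 0) := by
  obtain ⟨E, hE, hDE⟩ := Fermat.Agent.S22.exists_periodic_primitive hh hg
  refine ⟨(2 * (Real.pi : ℂ) * Complex.I)⁻¹ • E, ?_, ?_⟩
  · intro τ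
    refine per_hasDerivAt_of_D_eq (hE.holo.const_smul _) ?_ τ
    rw [normalizedDerivOfComplex_smul _ _ hE.holo, hDE]
  · have h0 : Tendsto E atImInfty (𝓝 0) := hE.zero
    have := h0.const_smul (2 * (Real.pi : ℂ) * Complex.I)⁻¹
    rw [smul_zero] at this
    exact this

/-- `1` is a strict period of `Γ₀(N)`. -/
theorem per_one_mem_strictPeriods (N : ℕ) :
    (1 : ℝ) ∈ (Gamma0 N : Subgroup (GL (Fin 2) ℝ)).strictPeriods := by
  simp [CongruenceSubgroup.strictPeriods_Gamma0]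

/-- Slash invariance of a cusp form on `Γ₀(N)`. -/
theorem per_slash_eq (N : ℕ) (f : CuspForm (Gamma0 N) 2) (γ : SL(2, ℤ))
    (hγ : γ ∈ Gamma0 N) : (⇑f) ∣[(2 : ℤ)] γ = ⇑f := by
  rw [ModularForm.SL_slash]
  exact SlashInvariantFormClass.slash_action_eq f _ (Subgroup.mem_map_of_mem _ hγ)

/-- The translates of a cusp form are cuspidal functions. -/
theorem per_cuspidal_slash (N : ℕ) [NeZero N] (f : CuspForm (Gamma0 N) 2) (δ : SL(2, ℤ)) :
    ∃ M : ℕ, 0 < M ∧ Fermat.Agent.S22.IsCuspidalFun (M : ℝ) ((⇑f) ∣[(2 : ℤ)] δ) := by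
  obtain ⟨M, hMpos, hM⟩ :=
    Subgroup.IsArithmetic.exists_nat_mem_strictPeriods_conj (Gamma0 N : Subgroup (GL (Fin 2) ℝ))
  have hMδ : (M : ℝ) ∈ (ConjAct.toConjAct (Matrix.SpecialLinearGroup.mapGL ℝ δ)⁻¹ •
      (Gamma0 N : Subgroup (GL (Fin 2) ℝ))).strictPeriods := by
    have := hM δ⁻¹
    rwa [map_inv] at this
  refine ⟨M, hMpos, ?_, ?_, ?_⟩
  · exact SlashInvariantFormClass.periodic_comp_ofComplex
      (CuspForm.translate f (Matrix.SpecialLinearGroup.mapGL ℝ δ)) hMδ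
  · rw [ModularForm.SL_slash]; exact (CuspFormClass.holo f).slash _ _
  · exact CuspFormClass.zero_at_infty_slash f δ

/-- (A1) Existence of the equivariant primitive. FROZEN STATEMENT. -/
theorem es_exists_primitive (N : ℕ) [NeZero N] (f : CuspForm (Gamma0 N) 2) :
    ∃ F : ℍ → ℂ, HasEquivariantPrimitive N f F := by
  have hf : Fermat.Agent.S22.IsCuspidalFun (1 : ℝ) (⇑f) :=
    ⟨SlashInvariantFormClass.periodic_comp_ofComplex f (per_one_mem_strictPeriods N),
      CuspFormClass.holo f, CuspFormClass.zero_at_infty f⟩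
  obtain ⟨F, hF, hF0⟩ := per_exists_primitive_of_cuspidal one_pos hf
  refine ⟨F, hF, hF0, ?_, ?_⟩
  · -- equivariance
    intro γ
    have h1 := per_D_comp_SL hF (γ : SL(2, ℤ))
    rw [per_slash_eq N f γ γ.2] at h1
    have h2 : ∀ τ : ℍ, HasDerivAt ((fun z : ℍ => F ((γ : SL(2, ℤ)) • z)) ∘ ofComplex) (f τ)
        (τ : ℂ) := per_hasDerivAt_of_D_eq h1.1 h1.2
    obtain ⟨c, hc⟩ := per_exists_const h2 hF
    exact ⟨c, hc⟩
  · -- limits at the cusps
    intro δ
    obtain ⟨M, hMpos, hg⟩ := per_cuspidal_slash N f δ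
    have hMpos' : (0 : ℝ) < (M : ℝ) := by exact_mod_cast hMpos
    obtain ⟨G, hG, hG0⟩ := per_exists_primitive_of_cuspidal hMpos' hg
    have h1 := per_D_comp_SL hF δ
    have h2 : ∀ τ : ℍ, HasDerivAt ((fun z : ℍ => F (δ • z)) ∘ ofComplex)
        (((⇑f) ∣[(2 : ℤ)] δ) τ) (τ : ℂ) := per_hasDerivAt_of_D_eq h1.1 h1.2
    obtain ⟨c, hc⟩ := per_exists_const h2 hG
    refine ⟨c, ?_⟩
    have h3 : (fun w : ℍ => F (δ • w)) = fun w => G w + c := by
      funext w
      rw [← hc w]; ring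
    rw [h3]
    have := hG0.add_const c
    rw [zero_add] at this
    exact this

/-- (A2) Uniqueness of the equivariant primitive. FROZEN STATEMENT. -/
theorem es_primitive_unique (N : ℕ) [NeZero N] (f : CuspForm (Gamma0 N) 2) {F₁ F₂ : ℍ → ℂ}
    (h₁ : HasEquivariantPrimitive N f F₁) (h₂ : HasEquivariantPrimitive N f F₂) : F₁ = F₂ := by
  obtain ⟨c, hc⟩ := per_exists_const h₁.1 h₂.1
  have h3 : Tendsto (fun z : ℍ => F₁ z - F₂ z) atImInfty (𝓝 (0 - 0)) := h₁.2.1.sub h₂.2.1
  have h4 : Tendsto (fun z : ℍ => F₁ z - F₂ z) atImInfty (𝓝 c) := by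
    have : (fun z : ℍ => F₁ z - F₂ z) = fun _ => c := funext hc
    rw [this]
    exact tendsto_const_nhds
  have hc0 : c = 0 := by
    have := tendsto_nhds_unique h4 h3
    simpa using this
  funext z
  have := hc z
  rw [hc0] at this
  exact sub_eq_zero.mp this

/-- (A2') The period map is computed by any equivariant primitive, at any base point.
FROZEN STATEMENT. -/
theorem es_periodMap_apply (N : ℕ) [NeZero N] (f : CuspForm (Gamma0 N) 2) {F : ℍ → ℂ}
    (hF : HasEquivariantPrimitive N f F) (γ : Gamma0 N) (z : ℍ) :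
    periodMap N f (Additive.ofMul γ) = F ((γ : SL(2, ℤ)) • z) - F z := by
  obtain ⟨F₀, h₀, hper⟩ := periodMap_def N f hF
  have hFF : F₀ = F := es_primitive_unique N f h₀ hF
  subst hFF
  rw [hper, IsEquivariantPrimitive.periodHom_apply, ← h₀.2.2.1.sub_eq_period γ z]

theorem per_primitive_add (N : ℕ) {f g : CuspForm (Gamma0 N) 2} {F G : ℍ → ℂ}
    (hF : HasEquivariantPrimitive N f F) (hG : HasEquivariantPrimitive N g G) :
    HasEquivariantPrimitive N (f + g) (F + G) := by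
  refine ⟨?_, ?_, ?_, ?_⟩
  · intro τ
    have := (hF.1 τ).add (hG.1 τ)
    exact this
  · have := hF.2.1.add hG.2.1
    rw [add_zero] at this
    exact this
  · intro γ
    obtain ⟨c, hc⟩ := hF.2.2.1 γ
    obtain ⟨d, hd⟩ := hG.2.2.1 γ
    refine ⟨c + d, fun z => ?_⟩
    rw [← hc z, ← hd z]
    simp only [Pi.add_apply]
    ring
  · intro δ
    obtain ⟨L, hL⟩ := hF.2.2.2 δ
    obtain ⟨L', hL'⟩ := hG.2.2.2 δ
    exact ⟨L + L', hL.add hL'⟩

theorem per_primitive_smul (N : ℕ) (a : ℂ) {f : CuspForm (Gamma0 N) 2} {F : ℍ → ℂ}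
    (hF : HasEquivariantPrimitive N f F) :
    HasEquivariantPrimitive N (a • f) (a • F) := by
  refine ⟨?_, ?_, ?_, ?_⟩
  · intro τ
    have := (hF.1 τ).const_smul a
    exact this
  · have := hF.2.1.const_smul a
    rw [smul_zero] at this
    exact this
  · intro γ
    obtain ⟨c, hc⟩ := hF.2.2.1 γ
    refine ⟨a * c, fun z => ?_⟩
    rw [← hc z]
    simp only [Pi.smul_apply, smul_eq_mul]
    ring
  · intro δ
    obtain ⟨L, hL⟩ := hF.2.2.2 δ
    exact ⟨a • L, hL.const_smul a⟩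

/-- (A3) The period map is linear. FROZEN STATEMENT. -/
theorem es_existsPeriodMapLinear (N : ℕ) [NeZero N] : ExistsPeriodMapLinear N := by
  refine ⟨{ toFun := periodMap N, map_add' := ?_, map_smul' := ?_ }, fun f => rfl⟩
  · intro f g
    obtain ⟨F, hF⟩ := es_exists_primitive N f
    obtain ⟨G, hG⟩ := es_exists_primitive N g
    refine AddMonoidHom.ext fun γ => ?_
    rw [AddMonoidHom.add_apply]
    have h1 := es_periodMap_apply N (f + g) (per_primitive_add N hF hG) (Additive.toMul γ)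
      UpperHalfPlane.I
    have h2 := es_periodMap_apply N f hF (Additive.toMul γ) UpperHalfPlane.I
    have h3 := es_periodMap_apply N g hG (Additive.toMul γ) UpperHalfPlane.I
    simp only [ofMul_toMul] at h1 h2 h3
    rw [h1, h2, h3]
    simp only [Pi.add_apply]
    ring
  · intro a f
    obtain ⟨F, hF⟩ := es_exists_primitive N f
    refine AddMonoidHom.ext fun γ => ?_
    have h1 := es_periodMap_apply N (a • f) (per_primitive_smul N a hF) (Additive.toMul γ)
      UpperHalfPlane.I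
    have h2 := es_periodMap_apply N f hF (Additive.toMul γ) UpperHalfPlane.I
    simp only [ofMul_toMul] at h1 h2
    rw [h1]
    simp only [RingHom.id_apply, AddMonoidHom.smul_apply, h2, Pi.smul_apply, smul_eq_mul]
    ring

/-- A fixed "cusp" of an element with `tr² = 4`: conjugation into the upper triangular group. -/
theorem per_exists_conj_T (γ : SL(2, ℤ))
    (htr : ((γ : Matrix (Fin 2) (Fin 2) ℤ)).trace ^ 2 = 4) :
    ∃ (δ : SL(2, ℤ)) (k : ℤ), ∀ w : ℍ, γ • (δ • w) = δ • (ModularGroup.T ^ k • w) := by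
  -- a primitive vector `(p, q)` with `c p² + (d - a) p q - b q² = 0`
  have hdet : γ 0 0 * γ 1 1 - γ 0 1 * γ 1 0 = 1 := by
    have := γ.det_coe
    rw [Matrix.det_fin_two] at this
    exact this
  have htr' : (γ 0 0 + γ 1 1) ^ 2 = 4 := by
    rw [Matrix.trace_fin_two] at htr
    exact htr
  have hdisc : (γ 1 1 - γ 0 0) ^ 2 + 4 * γ 0 1 * γ 1 0 = 0 := by
    linear_combination htr' - 4 * hdet
  obtain ⟨p, q, hpq, hform⟩ : ∃ p q : ℤ, IsCoprime p q ∧
      γ 1 0 * p ^ 2 + (γ 1 1 - γ 0 0) * p * q - γ 0 1 * q ^ 2 = 0 := by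
    by_cases hc : γ 1 0 = 0
    · exact ⟨1, 0, isCoprime_one_left, by rw [hc]; ring⟩
    · have hg : (Int.gcd (γ 0 0 - γ 1 1) (2 * γ 1 0) : ℤ) ≠ 0 := by
        intro h
        have h2 : Int.gcd (γ 0 0 - γ 1 1) (2 * γ 1 0) = 0 := by exact_mod_cast h
        rw [Int.gcd_eq_zero_iff] at h2
        have := h2.2
        have : γ 1 0 = 0 := by omega
        exact hc this
      obtain ⟨p, hp⟩ := Int.gcd_dvd_left (γ 0 0 - γ 1 1) (2 * γ 1 0)
      obtain ⟨q, hq⟩ := Int.gcd_dvd_right (γ 0 0 - γ 1 1) (2 * γ 1 0)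
      set g : ℤ := (Int.gcd (γ 0 0 - γ 1 1) (2 * γ 1 0) : ℤ) with hgdef
      refine ⟨p, q, ?_, ?_⟩
      · have hcop : IsCoprime p q := by
          obtain ⟨u, v, huv⟩ : ∃ u v : ℤ, (γ 0 0 - γ 1 1) * u + (2 * γ 1 0) * v = g := by
            have := Int.gcd_eq_gcd_ab (γ 0 0 - γ 1 1) (2 * γ 1 0)
            exact ⟨_, _, this.symm⟩
          refine ⟨u, v, ?_⟩
          have : g * (u * p + v * q) = g * 1 := by
            rw [mul_one]
            nth_rewrite 2 [← huv]
            rw [hp, hq]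
            ring
          exact mul_left_cancel₀ hg this
        exact hcop
      · have h1 : g ^ 2 * (γ 1 0 * p ^ 2 + (γ 1 1 - γ 0 0) * p * q - γ 0 1 * q ^ 2) = 0 := by
          have e1 : g * p = γ 0 0 - γ 1 1 := hp.symm
          have e2 : g * q = 2 * γ 1 0 := hq.symm
          have : g ^ 2 * (γ 1 0 * p ^ 2 + (γ 1 1 - γ 0 0) * p * q - γ 0 1 * q ^ 2)
              = γ 1 0 * (g * p) ^ 2 + (γ 1 1 - γ 0 0) * (g * p) * (g * q)
                - γ 0 1 * (g * q) ^ 2 := by ring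
          rw [this, e1, e2]
          linear_combination (-γ 1 0) * hdisc
        rcases mul_eq_zero.mp h1 with h | h
        · exact absurd (pow_eq_zero_iff (two_ne_zero)|>.mp h) hg
        · exact h
  obtain ⟨δ, hδ0, hδ1⟩ : ∃ g : SL(2, ℤ), g 0 0 = p ∧ g 1 0 = q := by
    obtain ⟨u, v, huv⟩ := hpq
    refine ⟨⟨!![p, -v; q, u], ?_⟩, rfl, rfl⟩
    rw [Matrix.det_fin_two_of]
    linarith
  have hA : (δ⁻¹ * γ * δ) 1 0 = 0 := by
    have : (δ⁻¹ * γ * δ) 1 0
        = γ 1 0 * δ 0 0 ^ 2 + (γ 1 1 - γ 0 0) * δ 0 0 * δ 1 0 - γ 0 1 * δ 1 0 ^ 2 := by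
      simp [Matrix.mul_apply, Fin.sum_univ_two, Matrix.adjugate_fin_two, Matrix.vecMul,
        dotProduct]
      ring
    rw [this, hδ0, hδ1, hform]
  obtain ⟨k, hk⟩ := ModularGroup.exists_eq_T_zpow_of_c_eq_zero hA
  refine ⟨δ, k, fun w => ?_⟩
  rw [← hk w, ← mul_smul, ← mul_smul]
  congr 1
  group

theorem per_tendsto_T_zpow (k : ℤ) :
    Tendsto (fun w : ℍ => ModularGroup.T ^ k • w) atImInfty atImInfty := by
  rw [atImInfty, tendsto_comap_iff]
  have : (UpperHalfPlane.im ∘ fun w : ℍ => ModularGroup.T ^ k • w) = UpperHalfPlane.im := by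
    funext w
    rw [Function.comp_apply]
    exact ModularGroup.im_T_zpow_smul w k
  rw [this]
  exact tendsto_comap

/-- (A4) Periods vanish on parabolic elements (and on `±1`). FROZEN STATEMENT. -/
theorem es_periodMap_parabolic (N : ℕ) [NeZero N] (f : CuspForm (Gamma0 N) 2) :
    periodMap N f ∈ parabolicHoms ℂ (Gamma0 N) ℂ := by
  rw [mem_parabolicHoms_iff]
  intro γ hγ
  obtain ⟨F, hF⟩ := es_exists_primitive N f
  obtain ⟨δ, k, hδ⟩ := per_exists_conj_T (γ : SL(2, ℤ)) hγ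
  obtain ⟨L, hL⟩ := hF.2.2.2 δ
  have h1 : ∀ w : ℍ, periodMap N f (Additive.ofMul γ)
      = F (δ • (ModularGroup.T ^ k • w)) - F (δ • w) := by
    intro w
    rw [es_periodMap_apply N f hF γ (δ • w), hδ w]
  have h2 : Tendsto (fun w : ℍ => F (δ • (ModularGroup.T ^ k • w))) atImInfty (𝓝 L) :=
    hL.comp (per_tendsto_T_zpow k)
  have h3 : Tendsto (fun w : ℍ => F (δ • (ModularGroup.T ^ k • w)) - F (δ • w)) atImInfty
      (𝓝 (L - L)) := h2.sub hL
  have h4 : (fun w : ℍ => F (δ • (ModularGroup.T ^ k • w)) - F (δ • w))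
      = fun _ => periodMap N f (Additive.ofMul γ) := by
    funext w
    rw [h1 w]
  rw [h4, sub_self] at h3
  exact tendsto_nhds_unique tendsto_const_nhds h3

end

end Fermat.Agent.S21
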